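/-
S55 (Poitou-Tate), block B: abstract Kummer theory in the relative homogeneous cochain model.

ABSTRACT SETUP.  `G` a group with level system `L`;
  `ρ : Representation ℤ G A`          (later: `A = Additive (Qbar)ˣ`),
  `τ : Representation (ZMod p) G T`   (later: `T = ZMod p`, `τ = ` cyclotomic character, i.e. `μ_p`),
  `ι : T →+ A`                        (later: `a ↦ ζ ^ a`).
`KummerSetup L p ρ τ ι` bundles: `ρ` smooth, `ι` injective equivariant with image `A[p]`,
`A` is `p`-divisible, and Hilbert 90 for every subgroup `V ≤ G`.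

Everything in `PT/B/*` (Kummer map, injectivity on `H²`, the cyclic step) is a formal consequence.
-/
import Fermat.Agent.PT.Coh.Defs

set_option autoImplicit false
set_option linter.unusedSectionVars false

namespace Fermat.Agent.PT

section Mono

variable {k G A : Type*} [CommRing k] [Group G] [AddCommGroup A] [Module k A]
variable {L : LevelSystem G} {V V' : Subgroup G} {ρ : Representation k G A}

lemma X0_le_of_le (h : V' ≤ V) : X0 L V ρ ≤ X0 L V' ρ :=
  fun _ hf => ⟨fun v hv => hf.1 v (h hv), hf.2⟩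

lemma X1_le_of_le (h : V' ≤ V) : X1 L V ρ ≤ X1 L V' ρ :=
  fun _ hf => ⟨fun v hv => hf.1 v (h hv), hf.2⟩

lemma X2_le_of_le (h : V' ≤ V) : X2 L V ρ ≤ X2 L V' ρ :=
  fun _ hf => ⟨fun v hv => hf.1 v (h hv), hf.2⟩

lemma Z1_le_of_le (h : V' ≤ V) : Z1 L V ρ ≤ Z1 L V' ρ :=
  fun _ hf => ⟨X1_le_of_le h hf.1, hf.2⟩

lemma Z2_le_of_le (h : V' ≤ V) : Z2 L V ρ ≤ Z2 L V' ρ :=
  fun _ hf => ⟨X2_le_of_le h hf.1, hf.2⟩

lemma B1_le_of_le (h : V' ≤ V) : B1 L V ρ ≤ B1 L V' ρ := by
  rintro _ ⟨e, he, rfl⟩; exact ⟨e, X0_le_of_le h he, rfl⟩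

lemma B2_le_of_le (h : V' ≤ V) : B2 L V ρ ≤ B2 L V' ρ := by
  rintro _ ⟨e, he, rfl⟩; exact ⟨e, X1_le_of_le h he, rfl⟩

/-- The elements of `G` under which a `1`-variable function is equivariant form a subgroup. -/
def equivSubgroup0 (ρ : Representation k G A) (f : G → A) : Subgroup G where
  carrier := {v | ∀ g₀, f (v * g₀) = ρ v (f g₀)}
  one_mem' := fun g₀ => by simp
  mul_mem' := fun {a b} ha hb g₀ => by
    rw [mul_assoc, ha, hb, map_mul]; rfl
  inv_mem' := fun {a} ha g₀ => by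
    have h := ha (a⁻¹ * g₀)
    rw [mul_inv_cancel_left] at h
    rw [h, ← Module.End.mul_apply, ← map_mul, inv_mul_cancel, map_one]; rfl

/-- The elements of `G` under which a `2`-variable function is equivariant form a subgroup. -/
def equivSubgroup1 (ρ : Representation k G A) (f : G → G → A) : Subgroup G where
  carrier := {v | ∀ g₀ g₁, f (v * g₀) (v * g₁) = ρ v (f g₀ g₁)}
  one_mem' := fun g₀ g₁ => by simp
  mul_mem' := fun {a b} ha hb g₀ g₁ => by
    rw [mul_assoc, mul_assoc, ha, hb, map_mul]; rfl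
  inv_mem' := fun {a} ha g₀ g₁ => by
    have h := ha (a⁻¹ * g₀) (a⁻¹ * g₁)
    rw [mul_inv_cancel_left, mul_inv_cancel_left] at h
    rw [h, ← Module.End.mul_apply, ← map_mul, inv_mul_cancel, map_one]; rfl

lemma equivariant0_iff_le {f : G → A} : Equivariant0 V ρ f ↔ V ≤ equivSubgroup0 ρ f := Iff.rfl

lemma equivariant1_iff_le {f : G → G → A} : Equivariant1 V ρ f ↔ V ≤ equivSubgroup1 ρ f := Iff.rfl

end Mono

section Setup

variable {G : Type*} [Group G] (L : LevelSystem G) (p : ℕ) [Fact p.Prime]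
variable {A : Type*} [AddCommGroup A] (ρ : Representation ℤ G A)
variable {T : Type*} [AddCommGroup T] [Module (ZMod p) T] (τ : Representation (ZMod p) G T)

/-- The abstract Kummer setup: `0 → T → A --p--> A → 0` with Hilbert 90 for `A`. -/
structure KummerSetup (ι : T →+ A) : Prop where
  smooth : IsSmoothRep L ρ
  inj : Function.Injective ι
  equiv : ∀ g t, ι (τ g t) = ρ g (ι t)
  range : ∀ a : A, p • a = 0 → ∃ t, ι t = a
  div : ∀ a : A, ∃ a', p • a' = a
  h90 : ∀ V : Subgroup G, Z1 L V ρ ≤ B1 L V ρ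

variable {L p ρ τ} {ι : T →+ A}

namespace KummerSetup

/-- a set-theoretic division by `p` -/
noncomputable def s (K : KummerSetup L p ρ τ ι) (a : A) : A := (K.div a).choose

lemma p_smul_s (K : KummerSetup L p ρ τ ι) (a : A) : p • K.s a = a := (K.div a).choose_spec

/-- a set-theoretic inverse of `ι` -/
noncomputable def ιinv (_K : KummerSetup L p ρ τ ι) (a : A) : T := Function.invFun ι a

lemma ι_ιinv (K : KummerSetup L p ρ τ ι) {a : A} (ha : p • a = 0) : ι (K.ιinv a) = a :=
  Function.invFun_eq (K.range a ha)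

lemma ιinv_ι (K : KummerSetup L p ρ τ ι) (t : T) : K.ιinv (ι t) = t :=
  Function.leftInverse_invFun K.inj t

lemma p_smul_ι (_K : KummerSetup L p ρ τ ι) (t : T) : p • ι t = 0 := by
  rw [← map_nsmul]
  have : p • t = 0 := by
    rw [← Nat.cast_smul_eq_nsmul (ZMod p), ZMod.natCast_self, zero_smul]
  rw [this, map_zero]

/-- `ι (z • t) = z.val • ι t`. -/
lemma ι_smul (_K : KummerSetup L p ρ τ ι) (z : ZMod p) (t : T) : ι (z • t) = z.val • ι t := by
  rw [← map_nsmul, ← Nat.cast_smul_eq_nsmul (ZMod p), ZMod.natCast_val, ZMod.cast_id', id]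

/-- The equivariant `p`-th root of the constant function `b`
(independent of the subgroup `V` fixing `b`): `eK b g = g · s (g⁻¹ · b)`. -/
noncomputable def eK (K : KummerSetup L p ρ τ ι) (b : A) (g : G) : A := ρ g (K.s (ρ g⁻¹ b))

lemma p_smul_eK (K : KummerSetup L p ρ τ ι) (b : A) (g : G) : p • K.eK b g = b := by
  rw [eK, ← map_nsmul, p_smul_s, ← Module.End.mul_apply, ← map_mul, mul_inv_cancel, map_one]; rfl

/-- The Kummer cochain of `b` (a cocycle in `Z1 L V τ` for every `V` fixing `b`). -/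
noncomputable def kum (K : KummerSetup L p ρ τ ι) (b : A) (g₀ g₁ : G) : T :=
  K.ιinv (K.eK b g₁ - K.eK b g₀)

lemma ι_kum (K : KummerSetup L p ρ τ ι) (b : A) (g₀ g₁ : G) :
    ι (K.kum b g₀ g₁) = K.eK b g₁ - K.eK b g₀ :=
  K.ι_ιinv (by rw [smul_sub, p_smul_eK, p_smul_eK, sub_self])

end KummerSetup

end Setup

end Fermat.Agent.PT
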