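/-
S55 block B: the cyclic step, definitions and bookkeeping lemmas.

A character `χ : V → ZMod p` is given as a COCYCLE `x ∈ Z1 L V (trivZ p G)` (`χ v = x 1 v`), so that
restriction to a smaller subgroup is the identity on functions.
  `m g = x 1 g`          : `x g₀ g₁ = m g₁ - m g₀`, `m (v g) = m v + m g` for `v ∈ V`,
  `kerOf V x`            : the kernel `V'` of `χ`,
  `tOf x g₀ g₁ ∈ {0,1}`  : `(x g₀ g₁).val = (m g₁).val - (m g₀).val + p * tOf x g₀ g₁`,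
  `wOf x g ∈ {0,1}`      : `(m (σ g)).val = (m g).val + 1 - p * wOf x g` if `χ σ = 1`,
  `cB x b = (d t) • b`   : the classical cyclic-algebra cocycle,
  `theta K b x = κ(b) ∪ χ`, `gammaK` : `ι theta + cB = d gammaK`.
-/
import Fermat.Agent.PT.B.Setup

set_option autoImplicit false
set_option linter.unusedSectionVars false

namespace Fermat.Agent.PT

/-- the trivial representation on `ZMod p` -/
abbrev trivZ (p : ℕ) (G : Type*) [Group G] : Representation (ZMod p) G (ZMod p) :=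
  Representation.trivial (ZMod p) G (ZMod p)

section

variable {G : Type*} [Group G] {L : LevelSystem G} {p : ℕ} [Fact p.Prime]

/-- the kernel of the character `v ↦ x 1 v` of `V` -/
def kerOf (V : Subgroup G) (x : G → G → ZMod p) : Subgroup G where
  carrier := {v | v ∈ V ∧ ∀ g, x 1 (v * g) = x 1 g}
  one_mem' := ⟨V.one_mem, fun g => by rw [one_mul]⟩
  mul_mem' := fun {a b} ha hb => ⟨V.mul_mem ha.1 hb.1, fun g => by
    rw [mul_assoc, ha.2, hb.2]⟩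
  inv_mem' := fun {a} ha => ⟨V.inv_mem ha.1, fun g => by
    have h := ha.2 (a⁻¹ * g)
    rw [mul_inv_cancel_left] at h
    exact h.symm⟩

lemma kerOf_le (V : Subgroup G) (x : G → G → ZMod p) : kerOf V x ≤ V := fun _ h => h.1

variable {V : Subgroup G} {x : G → G → ZMod p}

lemma x_eq_sub (hx : x ∈ Z1 L V (trivZ p G)) (g₀ g₁ : G) : x g₀ g₁ = x 1 g₁ - x 1 g₀ := by
  have h := congrFun (congrFun (congrFun (mem_Z1.mp hx).2 1) g₀) g₁
  simp only [d1_apply, Pi.zero_apply] at h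
  linear_combination h

lemma x_one_one (hx : x ∈ Z1 L V (trivZ p G)) : x 1 1 = 0 := by
  have h := x_eq_sub hx 1 1
  rwa [sub_self] at h

lemma x_one_mul (hx : x ∈ Z1 L V (trivZ p G)) {v : G} (hv : v ∈ V) (g : G) :
    x 1 (v * g) = x 1 v + x 1 g := by
  have h1 := x_eq_sub hx v (v * g)
  have h2 : x (v * 1) (v * g) = x 1 g := (mem_Z1.mp hx).1.1 v hv 1 g
  rw [mul_one] at h2
  rw [h2] at h1
  linear_combination -h1

lemma x_one_pow (hx : x ∈ Z1 L V (trivZ p G)) {v : G} (hv : v ∈ V) (n : ℕ) (g : G) :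
    x 1 (v ^ n * g) = n * x 1 v + x 1 g := by
  induction n with
  | zero => simp
  | succ n ih =>
    rw [pow_succ', mul_assoc, x_one_mul hx hv, ih]
    push_cast
    ring

lemma mem_kerOf_iff (hx : x ∈ Z1 L V (trivZ p G)) {v : G} :
    v ∈ kerOf V x ↔ v ∈ V ∧ x 1 v = 0 := by
  constructor
  · rintro ⟨hv, h⟩
    refine ⟨hv, ?_⟩
    have := h 1
    rwa [mul_one, x_one_one hx] at this
  · rintro ⟨hv, h⟩
    exact ⟨hv, fun g => by rw [x_one_mul hx hv, h, zero_add]⟩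

lemma kerOf_conj (hx : x ∈ Z1 L V (trivZ p G)) {v w : G} (hv : v ∈ V) (hw : w ∈ kerOf V x) :
    v * w * v⁻¹ ∈ kerOf V x := by
  rw [mem_kerOf_iff hx] at hw ⊢
  refine ⟨V.mul_mem (V.mul_mem hv hw.1) (V.inv_mem hv), ?_⟩
  have h1 : x 1 (v * v⁻¹) = x 1 v + x 1 v⁻¹ := x_one_mul hx hv _
  rw [mul_inv_cancel, x_one_one hx] at h1
  rw [mul_assoc, x_one_mul hx hv, x_one_mul hx hw.1, hw.2, zero_add, ← h1]

lemma kerOf_conj' (hx : x ∈ Z1 L V (trivZ p G)) {v w : G} (hv : v ∈ V) (hw : w ∈ kerOf V x) :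
    v⁻¹ * w * v ∈ kerOf V x := by
  have := kerOf_conj hx (V.inv_mem hv) hw
  rwa [inv_inv] at this

/-- restriction of the character: the kernel on a smaller subgroup -/
lemma kerOf_of_le {V₁ : Subgroup G} (h : V₁ ≤ V) : kerOf V₁ x = V₁ ⊓ kerOf V x := by
  ext v
  constructor
  · rintro ⟨hv, h2⟩
    exact ⟨hv, h hv, h2⟩
  · rintro ⟨hv, _, h2⟩
    exact ⟨hv, h2⟩

lemma exists_sigma (hx : x ∈ Z1 L V (trivZ p G)) (h : kerOf V x ≠ V) : ∃ σ ∈ V, x 1 σ = 1 := by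
  have h1 : ∃ v ∈ V, v ∉ kerOf V x := by
    by_contra hcon
    push Not at hcon
    exact h (le_antisymm (kerOf_le V x) hcon)
  obtain ⟨v, hv, hvk⟩ := h1
  have ha : x 1 v ≠ 0 := fun h0 => hvk ((mem_kerOf_iff hx).mpr ⟨hv, h0⟩)
  refine ⟨v ^ ((x 1 v)⁻¹).val, V.pow_mem hv _, ?_⟩
  have h2 := x_one_pow hx hv ((x 1 v)⁻¹).val 1
  rw [mul_one, x_one_one hx, add_zero, ZMod.natCast_zmod_val, inv_mul_cancel₀ ha] at h2
  exact h2

lemma sigma_pow_p_mem (hx : x ∈ Z1 L V (trivZ p G)) {σ : G} (hσ : σ ∈ V) :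
    σ ^ p ∈ kerOf V x := by
  rw [mem_kerOf_iff hx]
  refine ⟨V.pow_mem hσ _, ?_⟩
  have h2 := x_one_pow hx hσ p 1
  rw [mul_one, x_one_one hx, add_zero, ZMod.natCast_self, zero_mul] at h2
  exact h2

/-- `V` is generated by `V'` and `σ`. -/
lemma le_of_kerOf_le_of_sigma (hx : x ∈ Z1 L V (trivZ p G)) {σ : G} (hσ : σ ∈ V)
    (hσ1 : x 1 σ = 1) {W : Subgroup G} (h1 : kerOf V x ≤ W) (h2 : σ ∈ W) : V ≤ W := by
  intro v hv
  have hw : (σ ^ (x 1 v).val)⁻¹ * v ∈ kerOf V x := by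
    rw [mem_kerOf_iff hx]
    refine ⟨V.mul_mem (V.inv_mem (V.pow_mem hσ _)) hv, ?_⟩
    have h3 := x_one_pow hx hσ (x 1 v).val ((σ ^ (x 1 v).val)⁻¹ * v)
    rw [mul_inv_cancel_left, hσ1, mul_one, ZMod.natCast_zmod_val] at h3
    linear_combination -h3
  have h4 : v = σ ^ (x 1 v).val * ((σ ^ (x 1 v).val)⁻¹ * v) := by
    rw [mul_inv_cancel_left]
  rw [h4]
  exact W.mul_mem (W.pow_mem h2 _) (h1 hw)

/-- the index of `V'` in `V` is `p` (if the character is non trivial) -/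
lemma relIndex_kerOf (hx : x ∈ Z1 L V (trivZ p G)) (h : kerOf V x ≠ V) :
    (kerOf V x).relIndex V = p := by
  obtain ⟨σ, hσ, hσ1⟩ := exists_sigma hx h
  let φ : V →* Multiplicative (ZMod p) :=
    { toFun := fun v => Multiplicative.ofAdd (x 1 (v : G))
      map_one' := by
        change Multiplicative.ofAdd (x 1 1) = 1
        rw [x_one_one hx]; rfl
      map_mul' := fun a b => by
        change Multiplicative.ofAdd (x 1 ((a : G) * (b : G))) = _
        rw [x_one_mul hx a.2]; rfl }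
  have hker : φ.ker = (kerOf V x).subgroupOf V := by
    ext v
    rw [MonoidHom.mem_ker, Subgroup.mem_subgroupOf, mem_kerOf_iff hx]
    constructor
    · intro hv
      exact ⟨v.2, hv⟩
    · intro hv
      exact hv.2
  have hsurj : Function.Surjective φ := by
    intro z
    refine ⟨⟨σ ^ (Multiplicative.toAdd z).val, V.pow_mem hσ _⟩, ?_⟩
    change Multiplicative.ofAdd (x 1 (σ ^ (Multiplicative.toAdd z).val)) = z
    have h2 := x_one_pow hx hσ (Multiplicative.toAdd z).val 1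
    rw [mul_one, x_one_one hx, add_zero, ZMod.natCast_zmod_val, hσ1, mul_one] at h2
    rw [h2]; rfl
  rw [Subgroup.relIndex, ← hker, Subgroup.index_ker, MonoidHom.range_eq_top.mpr hsurj,
    Subgroup.card_top, Nat.card_eq_fintype_card, Fintype.card_multiplicative, ZMod.card]

lemma CycDefs.val_eq_of_cast (z : ZMod p) (n : ℤ) (h0 : 0 ≤ n) (h1 : n < p)
    (h : (n : ZMod p) = z) : (z.val : ℤ) = n := by
  have h2 : (((z.val : ℕ) : ℤ) : ZMod p) = (n : ZMod p) := by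
    rw [h, Int.cast_natCast, ZMod.natCast_zmod_val]
  have h3 := (ZMod.intCast_eq_intCast_iff _ _ p).mp h2
  have h4 := ZMod.val_lt z
  unfold Int.ModEq at h3
  rwa [Int.emod_eq_of_lt (by omega) (by omega), Int.emod_eq_of_lt h0 h1] at h3

/-- carry of the subtraction -/
def tOf (x : G → G → ZMod p) (g₀ g₁ : G) : ℤ := if (x 1 g₁).val < (x 1 g₀).val then 1 else 0

/-- carry of adding one -/
def wOf (x : G → G → ZMod p) (g : G) : ℤ := if (x 1 g).val + 1 = p then 1 else 0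

lemma val_x_eq (hx : x ∈ Z1 L V (trivZ p G)) (g₀ g₁ : G) :
    ((x g₀ g₁).val : ℤ) = (x 1 g₁).val - (x 1 g₀).val + p * tOf x g₀ g₁ := by
  have h1 := ZMod.val_lt (x 1 g₁)
  have h0 := ZMod.val_lt (x 1 g₀)
  apply CycDefs.val_eq_of_cast
  · unfold tOf
    split_ifs <;> omega
  · unfold tOf
    split_ifs <;> omega
  · rw [x_eq_sub hx g₀ g₁]
    push_cast
    rw [ZMod.natCast_zmod_val, ZMod.natCast_zmod_val, ZMod.natCast_self, zero_mul, add_zero]

lemma val_sigma_mul (hx : x ∈ Z1 L V (trivZ p G)) {σ : G} (hσ : σ ∈ V) (hσ1 : x 1 σ = 1) (g : G) :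
    ((x 1 (σ * g)).val : ℤ) = (x 1 g).val + 1 - p * wOf x g := by
  have h1 := ZMod.val_lt (x 1 g)
  apply CycDefs.val_eq_of_cast
  · unfold wOf
    split_ifs <;> omega
  · unfold wOf
    split_ifs <;> omega
  · rw [x_one_mul hx hσ, hσ1]
    push_cast
    rw [ZMod.natCast_zmod_val, ZMod.natCast_self, zero_mul, sub_zero, add_comm]

lemma tOf_sigma (hx : x ∈ Z1 L V (trivZ p G)) {σ : G} (hσ : σ ∈ V) (hσ1 : x 1 σ = 1)
    (g₀ g₁ : G) : tOf x (σ * g₀) (σ * g₁) = tOf x g₀ g₁ + wOf x g₁ - wOf x g₀ := by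
  have h1 := val_x_eq hx g₀ g₁
  have h2 := val_x_eq hx (σ * g₀) (σ * g₁)
  have h3 : x (σ * g₀) (σ * g₁) = x g₀ g₁ := (mem_Z1.mp hx).1.1 σ hσ g₀ g₁
  rw [h3, val_sigma_mul hx hσ hσ1, val_sigma_mul hx hσ hσ1] at h2
  have hp : (p : ℤ) ≠ 0 := Nat.cast_ne_zero.mpr (Fact.out : p.Prime).ne_zero
  apply mul_left_cancel₀ hp
  linear_combination h1 - h2

lemma tOf_ker {v : G} (hv : v ∈ kerOf V x) (g₀ g₁ : G) :
    tOf x (v * g₀) (v * g₁) = tOf x g₀ g₁ := by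
  unfold tOf
  rw [hv.2, hv.2]

lemma wOf_ker {v : G} (hv : v ∈ kerOf V x) (g : G) : wOf x (v * g) = wOf x g := by
  unfold wOf
  rw [hv.2]

lemma sum_wOf (hx : x ∈ Z1 L V (trivZ p G)) {σ : G} (hσ : σ ∈ V) (hσ1 : x 1 σ = 1) (g : G) :
    ∑ i ∈ Finset.range p, wOf x (σ ^ i * g) = 1 := by
  have h1 : ∀ i : ℕ, (p : ℤ) * wOf x (σ ^ i * g)
      = 1 - (((x 1 (σ ^ (i + 1) * g)).val : ℤ) - ((x 1 (σ ^ i * g)).val : ℤ)) := by
    intro i
    have := val_sigma_mul hx hσ hσ1 (σ ^ i * g)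
    rw [← mul_assoc, ← pow_succ'] at this
    linear_combination this
  have h2 : (p : ℤ) * ∑ i ∈ Finset.range p, wOf x (σ ^ i * g) = p * 1 := by
    rw [Finset.mul_sum, Finset.sum_congr rfl (fun i _ => h1 i), Finset.sum_sub_distrib,
      Finset.sum_range_sub (fun i => ((x 1 (σ ^ i * g)).val : ℤ)), (sigma_pow_p_mem hx hσ).2,
      pow_zero, one_mul]
    simp
  have hp : (p : ℤ) ≠ 0 := Nat.cast_ne_zero.mpr (Fact.out : p.Prime).ne_zero
  exact mul_left_cancel₀ hp h2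

lemma smooth_x_one (hx : x ∈ Z1 L V (trivZ p G)) : Smooth0 L (fun g => x 1 g) := by
  obtain ⟨U, hU, hs⟩ := (mem_Z1.mp hx).1.2
  refine ⟨U, hU, fun g u hu => ?_⟩
  have := hs 1 g 1 U.one_mem u hu
  rwa [mul_one] at this

lemma smooth_tOf (hx : x ∈ Z1 L V (trivZ p G)) : Smooth1 L (tOf x) := by
  obtain ⟨U, hU, hs⟩ := smooth_x_one hx
  refine ⟨U, hU, fun g₀ g₁ u₀ h₀ u₁ h₁ => ?_⟩
  have e0 : x 1 (g₀ * u₀) = x 1 g₀ := hs g₀ u₀ h₀
  have e1 : x 1 (g₁ * u₁) = x 1 g₁ := hs g₁ u₁ h₁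
  unfold tOf
  rw [e0, e1]

lemma smooth_wOf (hx : x ∈ Z1 L V (trivZ p G)) : Smooth0 L (wOf x) := by
  obtain ⟨U, hU, hs⟩ := smooth_x_one hx
  refine ⟨U, hU, fun g u hu => ?_⟩
  have e0 : x 1 (g * u) = x 1 g := hs g u hu
  unfold wOf
  rw [e0]

end

end Fermat.Agent.PT
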