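/-
S55 block B: the cyclic step, norms and the classical cocycle `cB x b = (d t) • b`.
-/
import Fermat.Agent.PT.B.CycDefs

set_option autoImplicit false
set_option linter.unusedSectionVars false

namespace Fermat.Agent.PT

section

variable {G : Type*} [Group G] {L : LevelSystem G} {p : ℕ} [Fact p.Prime]
variable {V : Subgroup G} {x : G → G → ZMod p}
variable {A : Type*} [AddCommGroup A] {ρ : Representation ℤ G A}

/-- the norm `∑_{i<p} σ^i c` -/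
def normOf (ρ : Representation ℤ G A) (p : ℕ) (σ : G) (c : A) : A :=
  ∑ i ∈ Finset.range p, ρ (σ ^ i) c

/-- `σ^j c` is again fixed by `V'`. -/
lemma fixed_ker_of_fixed_ker (hx : x ∈ Z1 L V (trivZ p G)) {v : G} (hv : v ∈ V) {c : A}
    (hc : ∀ w ∈ kerOf V x, ρ w c = c) : ∀ w ∈ kerOf V x, ρ w (ρ v c) = ρ v c := by
  intro w hw
  have h1 : ρ w (ρ v c) = ρ v (ρ (v⁻¹ * w * v) c) := by
    rw [← Module.End.mul_apply, ← Module.End.mul_apply, ← map_mul, ← map_mul]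
    congr 2
    group
  rw [h1, hc _ (kerOf_conj' hx hv hw)]

/-- the stabiliser of a vector, as a subgroup -/
def bCycNormStab (ρ : Representation ℤ G A) (a : A) : Subgroup G where
  carrier := {g | ρ g a = a}
  one_mem' := by simp
  mul_mem' := fun {g h} hg hh => by
    simp only [Set.mem_ofPred_eq] at hg hh ⊢
    rw [map_mul, Module.End.mul_apply, hh, hg]
  inv_mem' := fun {g} hg => by
    simp only [Set.mem_ofPred_eq] at hg ⊢
    conv_lhs => rw [← hg]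
    rw [← Module.End.mul_apply, ← map_mul, inv_mul_cancel, map_one, Module.End.one_apply]

lemma mem_bCycNormStab {a : A} {g : G} : g ∈ bCycNormStab ρ a ↔ ρ g a = a := Iff.rfl

/-- the norm of a `V'`-fixed vector is `V`-fixed -/
lemma normOf_fixed (hx : x ∈ Z1 L V (trivZ p G)) {σ : G} (hσ : σ ∈ V) (hσ1 : x 1 σ = 1) {c : A}
    (hc : ∀ w ∈ kerOf V x, ρ w c = c) : ∀ v ∈ V, ρ v (normOf ρ p σ c) = normOf ρ p σ c := by
  have h1 : kerOf V x ≤ bCycNormStab ρ (normOf ρ p σ c) := by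
    intro w hw
    rw [mem_bCycNormStab, normOf, map_sum]
    refine Finset.sum_congr rfl fun i _ => ?_
    exact fixed_ker_of_fixed_ker hx (V.pow_mem hσ i) hc w hw
  have h2 : σ ∈ bCycNormStab ρ (normOf ρ p σ c) := by
    rw [mem_bCycNormStab, normOf, map_sum]
    have h3 : ∀ i, ρ σ (ρ (σ ^ i) c) = ρ (σ ^ (i + 1)) c := by
      intro i
      rw [← Module.End.mul_apply, ← map_mul, pow_succ']
    simp only [h3]
    have h4 := Finset.sum_range_succ (fun i => ρ (σ ^ i) c) p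
    have h5 := Finset.sum_range_succ' (fun i => ρ (σ ^ i) c) p
    rw [h4] at h5
    simp only [pow_zero, map_one, Module.End.one_apply] at h5
    rw [hc _ (sigma_pow_p_mem hx hσ)] at h5
    exact (add_right_cancel h5).symm
  exact fun v hv => le_of_kerOf_le_of_sigma hx hσ hσ1 h1 h2 hv

/-- `ρ v c` only depends on `x 1 v`. -/
lemma bCycNorm_rho_eq_of_x_eq (hx : x ∈ Z1 L V (trivZ p G)) {v v' : G} (hv : v ∈ V) (hv' : v' ∈ V)
    (h : x 1 v = x 1 v') {c : A} (hc : ∀ w ∈ kerOf V x, ρ w c = c) : ρ v c = ρ v' c := by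
  have hmem : v⁻¹ * v' ∈ kerOf V x := by
    rw [mem_kerOf_iff hx]
    refine ⟨V.mul_mem (V.inv_mem hv) hv', ?_⟩
    have h1 := x_one_mul hx hv (v⁻¹ * v')
    rw [mul_inv_cancel_left, h] at h1
    exact (left_eq_add.mp h1)
  have h2 : ρ v' c = ρ v (ρ (v⁻¹ * v') c) := by
    rw [← Module.End.mul_apply, ← map_mul, mul_inv_cancel_left]
  rw [h2, hc _ hmem]

lemma bCycNorm_x_one_pow (hx : x ∈ Z1 L V (trivZ p G)) {σ : G} (hσ : σ ∈ V) (i : ℕ) :
    x 1 (σ ^ i) = i * x 1 σ := by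
  have h := x_one_pow hx hσ i 1
  rwa [mul_one, x_one_one hx, add_zero] at h

/-- the norm, written as a sum over `ZMod p` -/
lemma bCycNorm_normOf_eq_sum (hx : x ∈ Z1 L V (trivZ p G)) {σ σ' : G} (hσ : σ ∈ V)
    (hσ1 : x 1 σ ≠ 0) (hσ' : σ' ∈ V) (hσ1' : x 1 σ' ≠ 0) {c : A}
    (hc : ∀ w ∈ kerOf V x, ρ w c = c) :
    normOf ρ p σ' c = ∑ a : ZMod p, ρ (σ ^ (a * (x 1 σ)⁻¹).val) c := by
  have hp : 0 < p := (Fact.out : p.Prime).pos
  have : NeZero p := ⟨hp.ne'⟩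
  unfold normOf
  refine Finset.sum_bij' (fun i _ => (i : ZMod p) * x 1 σ') (fun a _ => (a * (x 1 σ')⁻¹).val)
    (fun _ _ => Finset.mem_univ _) (fun a _ => Finset.mem_range.mpr (ZMod.val_lt _)) ?_ ?_ ?_
  · intro i hi
    rw [mul_assoc, mul_inv_cancel₀ hσ1', mul_one, ZMod.val_natCast,
      Nat.mod_eq_of_lt (Finset.mem_range.mp hi)]
  · intro a _
    rw [ZMod.natCast_zmod_val, mul_assoc, inv_mul_cancel₀ hσ1', mul_one]
  · intro i _
    refine bCycNorm_rho_eq_of_x_eq hx (V.pow_mem hσ' i) (V.pow_mem hσ _) ?_ hc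
    rw [bCycNorm_x_one_pow hx hσ', bCycNorm_x_one_pow hx hσ, ZMod.natCast_zmod_val, mul_assoc,
      inv_mul_cancel₀ hσ1, mul_one]

/-- the norm does not depend on the generator -/
lemma normOf_eq (hx : x ∈ Z1 L V (trivZ p G)) {σ σ' : G} (hσ : σ ∈ V) (hσ1 : x 1 σ ≠ 0)
    (hσ' : σ' ∈ V) (hσ1' : x 1 σ' ≠ 0) {c : A} (hc : ∀ w ∈ kerOf V x, ρ w c = c) :
    normOf ρ p σ c = normOf ρ p σ' c := by
  rw [bCycNorm_normOf_eq_sum hx hσ hσ1 hσ hσ1 hc, bCycNorm_normOf_eq_sum hx hσ hσ1 hσ' hσ1' hc]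

/-- the classical cocycle of the cyclic algebra `(χ, b)` -/
def cB (x : G → G → ZMod p) (b : A) : G → G → G → A :=
  fun g₀ g₁ g₂ => (tOf x g₁ g₂ - tOf x g₀ g₂ + tOf x g₀ g₁) • b

lemma cB_eq_d1 (x : G → G → ZMod p) (b : A) :
    cB x b = d1 (k := ℤ) (fun g₀ g₁ => tOf x g₀ g₁ • b) := by
  funext g₀ g₁ g₂
  simp only [cB, d1_apply, sub_smul, add_smul]

lemma tOf_smul_mem_X1 (hx : x ∈ Z1 L V (trivZ p G)) {b : A} (hb : ∀ v ∈ V, ρ v b = b) :
    (fun g₀ g₁ => tOf x g₀ g₁ • b) ∈ X1 L (kerOf V x) ρ := by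
  rw [mem_X1]
  refine ⟨?_, ?_⟩
  · intro v hv g₀ g₁
    simp only
    rw [tOf_ker hv, map_zsmul, hb v (kerOf_le V x hv)]
  · obtain ⟨U, hU, h⟩ := smooth_tOf hx
    exact ⟨U, hU, fun g₀ g₁ u₀ hu₀ u₁ hu₁ => by simp only [h g₀ g₁ u₀ hu₀ u₁ hu₁]⟩

end

end Fermat.Agent.PT
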