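/-
S55 block B, cyclic step (CS1): `cB x (N c)` is a coboundary.

PROOF.  `m g := x 1 g`, `b := normOf ρ p σ c` (fixed by `V`: `normOf_fixed`).
Put `a g := ∑ j ∈ range (m g).val, ρ (σ ^ (j+1)) c` and `δ g₀ g₁ := tOf x g₀ g₁ • b + (a g₁ - a g₀)`.
* `d1 δ = cB x b` (`cB_eq_d1`, `d1_d0`).
* `δ` is smooth (`smooth_tOf`, `smooth_x_one`).
* `δ` is equivariant under `w ∈ kerOf V x`: `tOf_ker`, `m (w g) = m g`, and `ρ w` fixes every
  `ρ (σ^j) c` (`fixed_ker_of_fixed_ker`).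
* `δ` is equivariant under `σ`:  `a (σ g) = ρ σ (a g) + ρ σ c - wOf x g • b`
  [if `(m g).val + 1 < p` then `(m (σ g)).val = (m g).val + 1`, shift the sum; if `(m g).val + 1 = p`
  then `(m (σ g)).val = 0`, `a (σ g) = 0` and `ρ σ (a g) + ρ σ c = ρ σ (N c) = b`], and `tOf_sigma`.
* hence `V ≤ equivSubgroup1 ρ δ` by `le_of_kerOf_le_of_sigma`.
-/
import Fermat.Agent.PT.B.CycNorm

set_option autoImplicit false
set_option linter.unusedSectionVars false

namespace Fermat.Agent.PT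

variable {G : Type*} [Group G] {L : LevelSystem G} {p : ℕ} [Fact p.Prime]
variable {A : Type*} [AddCommGroup A] {ρ : Representation ℤ G A}
variable {V : Subgroup G} {x : G → G → ZMod p}

theorem CS1_shift (σ : G) (c : A) (n : ℕ) :
    ρ σ (∑ j ∈ Finset.range n, ρ (σ ^ (j + 1)) c) + ρ σ c
      = ∑ j ∈ Finset.range (n + 1), ρ (σ ^ (j + 1)) c := by
  rw [Finset.sum_range_succ', map_sum, zero_add, pow_one]
  congr 1
  refine Finset.sum_congr rfl fun j _ => ?_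
  rw [pow_succ' σ (j + 1), map_mul, Module.End.mul_apply]

theorem CS1_sum_eq_norm (σ : G) (c : A) :
    ∑ j ∈ Finset.range p, ρ (σ ^ (j + 1)) c = ρ σ (normOf ρ p σ c) := by
  unfold normOf
  rw [map_sum]
  refine Finset.sum_congr rfl fun j _ => ?_
  rw [pow_succ' σ j, map_mul, Module.End.mul_apply]

theorem CS1_a_sigma (hx : x ∈ Z1 L V (trivZ p G)) {σ : G} (hσ : σ ∈ V) (hσ1 : x 1 σ = 1)
    {c : A} (hc : ∀ w ∈ kerOf V x, ρ w c = c) (g : G) :
    ∑ j ∈ Finset.range (x 1 (σ * g)).val, ρ (σ ^ (j + 1)) c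
      = ρ σ (∑ j ∈ Finset.range (x 1 g).val, ρ (σ ^ (j + 1)) c) + ρ σ c
        - wOf x g • normOf ρ p σ c := by
  have hv := val_sigma_mul hx hσ hσ1 g
  have hb : ρ σ (normOf ρ p σ c) = normOf ρ p σ c := normOf_fixed hx hσ hσ1 hc σ hσ
  rw [CS1_shift]
  unfold wOf at hv ⊢
  split_ifs at hv ⊢ with h
  · have h0 : (x 1 (σ * g)).val = 0 := by omega
    rw [h0, h, CS1_sum_eq_norm (p := p), hb]
    simp
  · have h0 : (x 1 (σ * g)).val = (x 1 g).val + 1 := by omega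
    rw [h0]
    simp

/-- (CS1) norms are killed. -/
theorem cB_norm_mem_B2 (hx : x ∈ Z1 L V (trivZ p G)) {σ : G} (hσ : σ ∈ V) (hσ1 : x 1 σ = 1)
    {c : A} (hc : ∀ w ∈ kerOf V x, ρ w c = c) : cB x (normOf ρ p σ c) ∈ B2 L V ρ := by
  set b : A := normOf ρ p σ c with hbdef
  have hb : ∀ v ∈ V, ρ v b = b := normOf_fixed hx hσ hσ1 hc
  set a : G → A := fun g => ∑ j ∈ Finset.range (x 1 g).val, ρ (σ ^ (j + 1)) c with ha
  set δ : G → G → A := fun g₀ g₁ => tOf x g₀ g₁ • b + (a g₁ - a g₀) with hδ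
  have hker : kerOf V x ≤ equivSubgroup1 ρ δ := by
    intro w hw g₀ g₁
    have haw : ∀ g, a (w * g) = a g := by
      intro g
      simp only [ha]
      rw [hw.2 g]
    have hρa : ∀ g, ρ w (a g) = a g := by
      intro g
      simp only [ha]
      rw [map_sum]
      refine Finset.sum_congr rfl fun j _ => ?_
      exact fixed_ker_of_fixed_ker hx (V.pow_mem hσ (j + 1)) hc w hw
    simp only [hδ]
    rw [tOf_ker hw, haw, haw, map_add, map_sub, map_zsmul, hb w hw.1, hρa, hρa]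
  have hsig : σ ∈ equivSubgroup1 ρ δ := by
    intro g₀ g₁
    have h1 : ∀ g, a (σ * g) = ρ σ (a g) + ρ σ c - wOf x g • b := fun g =>
      CS1_a_sigma hx hσ hσ1 hc g
    simp only [hδ]
    rw [tOf_sigma hx hσ hσ1, h1, h1, map_add, map_sub, map_zsmul, hb σ hσ, sub_smul, add_smul]
    abel
  have hV : V ≤ equivSubgroup1 ρ δ := le_of_kerOf_le_of_sigma hx hσ hσ1 hker hsig
  refine ⟨δ, ⟨equivariant1_iff_le.mpr hV, ?_⟩, ?_⟩
  · obtain ⟨U, hU, hs⟩ := smooth_tOf hx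
    obtain ⟨U', hU', hs'⟩ := smooth_x_one hx
    obtain ⟨W, hW, h1, h2⟩ := L.directed' U hU U' hU'
    refine ⟨W, hW, fun g₀ g₁ u₀ hu₀ u₁ hu₁ => ?_⟩
    have haw : ∀ g, ∀ u ∈ W, a (g * u) = a g := by
      intro g u hu
      have h3 : x 1 (g * u) = x 1 g := hs' g u (h2 hu)
      simp only [ha]
      rw [h3]
    simp only [hδ]
    rw [hs g₀ g₁ u₀ (h1 hu₀) u₁ (h1 hu₁), haw _ _ hu₀, haw _ _ hu₁]
  · have h1 : δ = (fun g₀ g₁ => tOf x g₀ g₁ • b) + d0 (k := ℤ) a := by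
      funext g₀ g₁
      rfl
    rw [h1, map_add, d1_d0, add_zero, cB_eq_d1]

end Fermat.Agent.PT
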