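/-
S55 block B, cyclic step (CS2): if `cB x b` is a coboundary then `b` is a norm.

PROOF.  `cB x b = d1 δ`, `δ ∈ X1 L V ρ`.  `V' := kerOf V x`.  `δ - tOf x • b ∈ X1 L V' ρ`
(`tOf_smul_mem_X1`, `X1_le_of_le`) is killed by `d1` (`cB_eq_d1`), so by Hilbert 90 for `V'` it is
`d0 a`, `a ∈ X0 L V' ρ`:   `δ g₀ g₁ = tOf x g₀ g₁ • b + a g₁ - a g₀`.
Equivariance of `δ` under `σ` + `tOf_sigma` give: `u g := a (σ g) - ρ σ (a g) + wOf x g • b` does not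
depend on `g`; call the value `c₁` and put `c := ρ σ⁻¹ c₁`, so
     `a (σ g) = ρ σ (a g) + ρ σ c - wOf x g • b`.
`c₁` is fixed by `V'`: `u (w g) = ρ (σ w σ⁻¹) (u g)` for `w ∈ V'` (`wOf_ker`, `kerOf_conj`), and
`w ↦ σ w σ⁻¹` is onto `V'`; hence so is `c` (`fixed_ker_of_fixed_ker`).
Induction: `a (σ^n g) = ρ (σ^n) (a g) + ∑_{j<n} ρ (σ^(j+1)) c - (∑_{i<n} wOf x (σ^i g)) • b`.
For `n = p`: `σ^p ∈ V'` (`sigma_pow_p_mem`) so `a (σ^p g) = ρ (σ^p) (a g)`, `sum_wOf` gives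
`ρ σ (normOf ρ p σ c) = b`, hence `normOf ρ p σ c = ρ σ⁻¹ b = b`.
-/
import Fermat.Agent.PT.B.CycNorm

set_option autoImplicit false
set_option linter.unusedSectionVars false

namespace Fermat.Agent.PT

variable {G : Type*} [Group G] {L : LevelSystem G} {p : ℕ} [Fact p.Prime]
variable {A : Type*} [AddCommGroup A] {ρ : Representation ℤ G A}
variable {V : Subgroup G} {x : G → G → ZMod p}

theorem CS2_shift (σ : G) (c : A) (n : ℕ) :
    ρ σ (∑ j ∈ Finset.range n, ρ (σ ^ (j + 1)) c) + ρ σ c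
      = ∑ j ∈ Finset.range (n + 1), ρ (σ ^ (j + 1)) c := by
  rw [Finset.sum_range_succ', map_sum, zero_add, pow_one]
  congr 1
  refine Finset.sum_congr rfl fun j _ => ?_
  rw [pow_succ' σ (j + 1), map_mul, Module.End.mul_apply]

theorem CS2_sum_eq_norm (σ : G) (c : A) :
    ∑ j ∈ Finset.range p, ρ (σ ^ (j + 1)) c = ρ σ (normOf ρ p σ c) := by
  unfold normOf
  rw [map_sum]
  refine Finset.sum_congr rfl fun j _ => ?_
  rw [pow_succ' σ j, map_mul, Module.End.mul_apply]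

/-- the induction of the proof -/
theorem CS2_iterate {σ : G} {a : G → A} {b c : A} (hb : ρ σ b = b)
    (h : ∀ g, a (σ * g) = ρ σ (a g) + ρ σ c - wOf x g • b) (n : ℕ) (g : G) :
    a (σ ^ n * g) = ρ (σ ^ n) (a g) + ∑ j ∈ Finset.range n, ρ (σ ^ (j + 1)) c
      - (∑ i ∈ Finset.range n, wOf x (σ ^ i * g)) • b := by
  induction n with
  | zero => simp
  | succ n ih =>
    rw [pow_succ' σ n, mul_assoc, h, ih, map_sub, map_add, map_zsmul, hb, ← CS2_shift,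
      Finset.sum_range_succ, add_smul, map_mul, Module.End.mul_apply]
    abel

/-- (CS2) the kernel consists of norms (`h90` = Hilbert 90 for the kernel of the character). -/
theorem exists_norm_of_cB_mem_B2 (h90 : Z1 L (kerOf V x) ρ ≤ B1 L (kerOf V x) ρ)
    (hx : x ∈ Z1 L V (trivZ p G)) {σ : G} (hσ : σ ∈ V)
    (hσ1 : x 1 σ = 1) {b : A} (hb : ∀ v ∈ V, ρ v b = b) (h : cB x b ∈ B2 L V ρ) :
    ∃ c, (∀ w ∈ kerOf V x, ρ w c = c) ∧ normOf ρ p σ c = b := by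
  obtain ⟨δ, hδX, hδ⟩ := h
  have he : δ - (fun g₀ g₁ => tOf x g₀ g₁ • b) ∈ Z1 L (kerOf V x) ρ := by
    refine mem_Z1.mpr
      ⟨Submodule.sub_mem _ (X1_le_of_le (kerOf_le V x) hδX) (tOf_smul_mem_X1 hx hb), ?_⟩
    rw [map_sub, hδ, cB_eq_d1, sub_self]
  obtain ⟨a, haX, ha⟩ := h90 he
  have hδa : ∀ g₀ g₁, δ g₀ g₁ = tOf x g₀ g₁ • b + (a g₁ - a g₀) := by
    intro g₀ g₁
    have h1 := congrFun (congrFun ha g₀) g₁
    simp only [d0_apply, Pi.sub_apply] at h1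
    rw [h1]
    abel
  -- the function `u`
  have hu : ∀ g₀ g₁, a (σ * g₁) - ρ σ (a g₁) + wOf x g₁ • b
      = a (σ * g₀) - ρ σ (a g₀) + wOf x g₀ • b := by
    intro g₀ g₁
    have h1 := hδX.1 σ hσ g₀ g₁
    rw [hδa, hδa, tOf_sigma hx hσ hσ1, map_add, map_sub, map_zsmul, hb σ hσ, sub_smul,
      add_smul] at h1
    have h2 : a (σ * g₁) - ρ σ (a g₁) + wOf x g₁ • b - (a (σ * g₀) - ρ σ (a g₀) + wOf x g₀ • b)
        = (tOf x g₀ g₁ • b + wOf x g₁ • b - wOf x g₀ • b + (a (σ * g₁) - a (σ * g₀)))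
          - (tOf x g₀ g₁ • b + (ρ σ (a g₁) - ρ σ (a g₀))) := by abel
    rw [h1, sub_self] at h2
    exact sub_eq_zero.mp h2
  set c₁ : A := a (σ * 1) - ρ σ (a 1) + wOf x 1 • b with hc₁
  have hu1 : ∀ g, a (σ * g) - ρ σ (a g) + wOf x g • b = c₁ := fun g => hu 1 g
  have hc₁fix : ∀ w ∈ kerOf V x, ρ w c₁ = c₁ := by
    intro w hw
    have hw' : σ⁻¹ * w * σ ∈ kerOf V x := kerOf_conj' hx hσ hw
    have h1 := hu1 (σ⁻¹ * w * σ * 1)
    have h2 : σ * (σ⁻¹ * w * σ * 1) = w * (σ * 1) := by group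
    rw [h2, haX.1 w hw, haX.1 _ hw', wOf_ker hw', ← Module.End.mul_apply, ← map_mul] at h1
    have h3 : σ * (σ⁻¹ * w * σ) = w * σ := by group
    rw [h3, map_mul, Module.End.mul_apply] at h1
    calc ρ w c₁ = ρ w (a (σ * 1)) - ρ w (ρ σ (a 1)) + wOf x 1 • b := by
          rw [hc₁, map_add, map_sub, map_zsmul, hb w hw.1]
      _ = c₁ := h1
  have hcfix : ∀ w ∈ kerOf V x, ρ w (ρ σ⁻¹ c₁) = ρ σ⁻¹ c₁ :=
    fixed_ker_of_fixed_ker hx (V.inv_mem hσ) hc₁fix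
  have hσc : ρ σ (ρ σ⁻¹ c₁) = c₁ := by
    rw [← Module.End.mul_apply, ← map_mul, mul_inv_cancel, map_one]
    rfl
  have hstep : ∀ g, a (σ * g) = ρ σ (a g) + ρ σ (ρ σ⁻¹ c₁) - wOf x g • b := by
    intro g
    rw [hσc, ← hu1 g]
    abel
  have hit := CS2_iterate (x := x) (hb σ hσ) hstep p 1
  rw [sum_wOf hx hσ hσ1, one_smul, haX.1 _ (sigma_pow_p_mem hx hσ), CS2_sum_eq_norm,
    normOf_fixed hx hσ hσ1 hcfix σ hσ] at hit
  refine ⟨ρ σ⁻¹ c₁, hcfix, ?_⟩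
  have h4 : normOf ρ p σ (ρ σ⁻¹ c₁) - b = 0 := by
    have h5 : ρ (σ ^ p) (a 1) + normOf ρ p σ (ρ σ⁻¹ c₁) - b
        = ρ (σ ^ p) (a 1) + (normOf ρ p σ (ρ σ⁻¹ c₁) - b) := by abel
    rw [h5] at hit
    exact left_eq_add.mp hit
  exact sub_eq_zero.mp h4

end Fermat.Agent.PT
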