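/-
S55 block B, cyclic step (CS3): a class of `V` which dies on `V' = kerOf V x` is a `cB x b`.
(Inflation-restriction for the cyclic quotient `V/V'`, by hand.)

PROOF.  `Y = d1 e`, `e ∈ X1 L V' ρ`.  For `f : G → G → A` put `f^σ g₀ g₁ := ρ σ⁻¹ (f (σ g₀) (σ g₁))`,
for `a : G → A` put `a^σ g := ρ σ⁻¹ (a (σ g))`; both preserve `X_n L V' ρ` (`kerOf_conj`) and commute
with `d`.  `d1 (e^σ) = Y^σ = Y` (equivariance of `Y` under `σ ∈ V`), so `e^σ - e ∈ Z1 L V' ρ` and by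
Hilbert 90 for `V'`:  `e^σ - e = d0 a`, `a ∈ X0 L V' ρ`.
`A n g := ∑_{i<n} ρ (σ^i)⁻¹ (a (σ^i g))`  (`= ∑_{i<n} a^{σ^i}`), `A n ∈ X0 L V' ρ`,
     `(A n)^σ = A (n+1) - a`,      `e^{σ^n} - e = d0 (A n)`   (induction).
`σ^p ∈ V'` ⇒ `e^{σ^p} = e`, `a^{σ^p} = a` ⇒ `d0 (A p) = 0`, i.e. `A p` is a constant `b`; `b` is fixed
by `V'` (as `A p ∈ X0 L V' ρ`) and by `σ` (`(A p)^σ = A p + a^{σ^p} - a = A p`), hence by `V`
(`le_of_kerOf_le_of_sigma` applied to the stabiliser of `b`).  Also `A (n+p) = A n + b`.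
Put `j g := p - (x 1 g).val` (`1 ≤ j g ≤ p`), `B g := A (j g) g` and
     `δ g₀ g₁ := e g₀ g₁ + B g₁ - B g₀ - tOf x g₀ g₁ • b`.
* `d1 δ = Y - cB x b` (`cB_eq_d1`, `d1_d0`).   * `δ` is smooth.   * `δ` is `V'`-equivariant.
* `δ` is `σ`-equivariant: `e (σ g₀) (σ g₁) = ρ σ (e g₀ g₁ + a g₁ - a g₀)`;
  `j (σ g) + 1 = j g + p * wOf x g` (`val_sigma_mul`), so
  `B (σ g) = ρ σ ((A (j (σ g)))^σ g) = ρ σ (A (j (σ g) + 1) g - a g) = ρ σ (B g + wOf x g • b - a g)`;
  `tOf_sigma`; everything cancels.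
Hence `δ ∈ X1 L V ρ` and `Y - cB x b = d1 δ ∈ B2 L V ρ`.
-/
import Fermat.Agent.PT.B.CycNorm
import Fermat.Agent.PT.Coh.Twist

set_option autoImplicit false
set_option linter.unusedSectionVars false

namespace Fermat.Agent.PT

variable {G : Type*} [Group G] {L : LevelSystem G} {p : ℕ} [Fact p.Prime]
variable {A : Type*} [AddCommGroup A] {ρ : Representation ℤ G A}
variable {V : Subgroup G} {x : G → G → ZMod p}

/-- partial sums `∑_{i<n} a^{τ^i}` -/
def cs3A (ρ : Representation ℤ G A) (τ : G) (a : G → A) (n : ℕ) : G → A :=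
  ∑ i ∈ Finset.range n, tw0 ρ (τ ^ i) a

lemma cs3_tw0_one (f : G → A) : tw0 ρ 1 f = f := by
  funext g; simp

lemma cs3_tw1_one (f : G → G → A) : tw1 ρ 1 f = f := by
  funext g₀ g₁; simp

lemma cs3A_zero (τ : G) (a : G → A) : cs3A ρ τ a 0 = 0 := by
  simp [cs3A]

lemma cs3A_succ (τ : G) (a : G → A) (n : ℕ) :
    cs3A ρ τ a (n + 1) = cs3A ρ τ a n + tw0 ρ (τ ^ n) a := by
  simp [cs3A, Finset.sum_range_succ]

lemma cs3A_succ' (τ : G) (a : G → A) (n : ℕ) :
    cs3A ρ τ a (n + 1) = a + tw0 ρ τ (cs3A ρ τ a n) := by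
  unfold cs3A
  rw [Finset.sum_range_succ', map_sum, pow_zero, cs3_tw0_one, add_comm]
  congr 1
  refine Finset.sum_congr rfl fun i _ => ?_
  rw [pow_succ', tw0_mul]

lemma cs3A_mem {V' : Subgroup G} {τ : G} {a : G → A}
    (h : ∀ i : ℕ, tw0 ρ (τ ^ i) a ∈ X0 L V' ρ) (n : ℕ) : cs3A ρ τ a n ∈ X0 L V' ρ :=
  Submodule.sum_mem _ fun i _ => h i

lemma cs3A_smooth {U : Subgroup G} {τ : G} {a : G → A} (h : ∀ g, ∀ u ∈ U, a (g * u) = a g)
    (n : ℕ) (g u : G) (hu : u ∈ U) : cs3A ρ τ a n (g * u) = cs3A ρ τ a n g := by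
  unfold cs3A
  rw [Finset.sum_apply, Finset.sum_apply]
  refine Finset.sum_congr rfl fun i _ => ?_
  rw [tw0_apply, tw0_apply, ← mul_assoc, h _ u hu]

lemma cs3_tw1_pow {τ : G} {a : G → A} {e : G → G → A}
    (hda : d0 (k := ℤ) a = tw1 ρ τ e - e) (n : ℕ) :
    tw1 ρ (τ ^ n) e - e = d0 (k := ℤ) (cs3A ρ τ a n) := by
  induction n with
  | zero => rw [pow_zero, cs3_tw1_one, sub_self, cs3A_zero, map_zero]
  | succ n ih =>
    have h1 : tw1 ρ (τ ^ n) e = e + d0 (k := ℤ) (cs3A ρ τ a n) := by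
      rw [← ih]; abel
    rw [pow_succ', tw1_mul, h1, map_add, ← d0_tw0, cs3A_succ', map_add, hda]
    abel

lemma cs3A_add_p {τ : G} {a : G → A} {b : A} {P : ℕ} (hb : ∀ g, cs3A ρ τ a P g = b)
    (hτb : ρ τ b = b) (n : ℕ) (g : G) : cs3A ρ τ a (n + P) g = cs3A ρ τ a n g + b := by
  induction n generalizing g with
  | zero => rw [zero_add, hb, cs3A_zero]; simp
  | succ n ih =>
    have e1 : n + 1 + P = (n + P) + 1 := by omega
    rw [e1, cs3A_succ', cs3A_succ']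
    simp only [Pi.add_apply, tw0_apply]
    rw [ih, map_add, hτb]
    abel

/-- (CS3) (`h90` = Hilbert 90 for the kernel of the character). -/
theorem exists_cB_of_mem_B2_ker (h90 : Z1 L (kerOf V x) ρ ≤ B1 L (kerOf V x) ρ)
    (hx : x ∈ Z1 L V (trivZ p G)) {σ : G} (hσ : σ ∈ V) (hσ1 : x 1 σ = 1)
    {Y : G → G → G → A} (hY : Y ∈ Z2 L V ρ) (h : Y ∈ B2 L (kerOf V x) ρ) :
    ∃ b, (∀ v ∈ V, ρ v b = b) ∧ Y - cB x b ∈ B2 L V ρ := by
  classical
  have hp : 0 < p := (Fact.out : p.Prime).pos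
  set V' := kerOf V x with hV'
  set τ := σ⁻¹ with hτ
  have hτV : τ ∈ V := V.inv_mem hσ
  have hpowV : ∀ i : ℕ, τ ^ i ∈ V := fun i => V.pow_mem hτV i
  obtain ⟨e, he, hde⟩ := h
  have hconj : ∀ c ∈ V, ∀ w ∈ V', c⁻¹ * w * c ∈ V' := fun c hc w hw => kerOf_conj' hx hc hw
  have htw0 : ∀ c ∈ V, ∀ f ∈ X0 L V' ρ, tw0 ρ c f ∈ X0 L V' ρ :=
    fun c hc f hf => (twC L ρ c (hconj c hc)).mem0 f hf
  have htw1 : ∀ c ∈ V, ∀ f ∈ X1 L V' ρ, tw1 ρ c f ∈ X1 L V' ρ :=
    fun c hc f hf => (twC L ρ c (hconj c hc)).mem1 f hf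
  have hZ : tw1 ρ τ e - e ∈ Z1 L V' ρ := by
    refine ⟨(X1 L V' ρ).sub_mem (htw1 τ hτV e he) he, ?_⟩
    show d1 (k := ℤ) (tw1 ρ τ e - e) = 0
    rw [map_sub, d1_tw1, hde, tw2_of_mem hτV hY.1, sub_self]
  obtain ⟨a, ha, hda⟩ := h90 hZ
  have hAmem : ∀ n, cs3A ρ τ a n ∈ X0 L V' ρ :=
    cs3A_mem fun i => htw0 _ (hpowV i) a ha
  have hτp : τ ^ p ∈ V' := by
    have := sigma_pow_p_mem hx hσ
    rw [hτ, inv_pow]
    exact V'.inv_mem this
  -- `A p` is constant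
  have hd0 : d0 (k := ℤ) (cs3A ρ τ a p) = 0 := by
    rw [← cs3_tw1_pow hda, tw1_of_mem hτp he, sub_self]
  set b : A := cs3A ρ τ a p 1 with hb
  have hconst : ∀ g, cs3A ρ τ a p g = b := by
    intro g
    have := congrFun (congrFun hd0 1) g
    simp only [d0_apply, Pi.zero_apply] at this
    exact sub_eq_zero.mp this
  have hbV' : ∀ w ∈ V', ρ w b = b := by
    intro w hw
    have := (hAmem p).1 w hw 1
    rw [hconst, hconst] at this
    exact this.symm
  have hτb : ρ τ b = b := by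
    have h1 : cs3A ρ τ a (p + 1) = cs3A ρ τ a p + a := by
      rw [cs3A_succ, tw0_of_mem hτp ha]
    have h2 := cs3A_succ' (ρ := ρ) τ a p
    rw [h1] at h2
    have h3 := congrFun h2 1
    simp only [Pi.add_apply, tw0_apply] at h3
    rw [hconst, hconst] at h3
    have h4 : ρ τ b = a 1 + ρ τ b - a 1 := by abel
    rw [h4, ← h3]
    abel
  have hσb : ρ σ b = b := by
    have : ρ σ (ρ τ b) = b := by
      rw [← Module.End.mul_apply, ← map_mul, hτ, mul_inv_cancel, map_one]; rfl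
    rwa [hτb] at this
  let W : Subgroup G :=
    { carrier := {g | ρ g b = b}
      one_mem' := by simp
      mul_mem' := fun {g g'} hg hg' => by
        show ρ (g * g') b = b
        rw [map_mul, Module.End.mul_apply, hg', hg]
      inv_mem' := fun {g} hg => by
        show ρ g⁻¹ b = b
        have h1 : ρ g⁻¹ (ρ g b) = b := by
          rw [← Module.End.mul_apply, ← map_mul, inv_mul_cancel, map_one]; rfl
        rwa [show ρ g b = b from hg] at h1 }
  have hbV : ∀ v ∈ V, ρ v b = b :=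
    fun v hv => le_of_kerOf_le_of_sigma hx hσ hσ1 (W := W) (fun w hw => hbV' w hw) hσb hv
  refine ⟨b, hbV, ?_⟩
  -- the cochain `δ`
  let j : G → ℕ := fun g => p - (x 1 g).val
  let B : G → A := fun g => cs3A ρ τ a (j g) g
  let δ : G → G → A := fun g₀ g₁ => e g₀ g₁ + B g₁ - B g₀ - tOf x g₀ g₁ • b
  have hδ : δ = e + d0 (k := ℤ) B - fun g₀ g₁ => tOf x g₀ g₁ • b := by
    funext g₀ g₁
    simp only [δ, Pi.add_apply, Pi.sub_apply, d0_apply]
    abel
  have hdδ : d1 (k := ℤ) δ = Y - cB x b := by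
    rw [hδ, map_sub, map_add, d1_d0, hde, cB_eq_d1, add_zero]
  refine ⟨δ, ⟨?_, ?_⟩, hdδ⟩
  · -- equivariance
    rw [equivariant1_iff_le]
    refine le_of_kerOf_le_of_sigma hx hσ hσ1 ?_ ?_
    · intro w hw g₀ g₁
      have hB : ∀ g, B (w * g) = ρ w (B g) := by
        intro g
        have hj : j (w * g) = j g := by
          simp only [j]
          rw [hw.2 g]
        simp only [B]
        rw [hj]
        exact (hAmem (j g)).1 w hw g
      simp only [δ]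
      rw [he.1 w hw, hB, hB, tOf_ker hw, map_sub, map_sub, map_add, map_zsmul, hbV' w hw]
    · intro g₀ g₁
      have hE : e (σ * g₀) (σ * g₁) = ρ σ (e g₀ g₁ + a g₁ - a g₀) := by
        have h1 := congrFun (congrFun hda g₀) g₁
        simp only [d0_apply, Pi.sub_apply, tw1_apply, hτ, inv_inv] at h1
        have h2 : e g₀ g₁ + a g₁ - a g₀ = ρ σ⁻¹ (e (σ * g₀) (σ * g₁)) := by
          have : e g₀ g₁ + a g₁ - a g₀ = e g₀ g₁ + (a g₁ - a g₀) := by abel
          rw [this, h1]; abel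
        rw [h2, ← Module.End.mul_apply, ← map_mul, mul_inv_cancel, map_one]; rfl
      have hB : ∀ g, B (σ * g) = ρ σ (B g + wOf x g • b - a g) := by
        intro g
        have hv := val_sigma_mul hx hσ hσ1 g
        have hlt : (x 1 g).val < p := ZMod.val_lt _
        have hlt' : (x 1 (σ * g)).val < p := ZMod.val_lt _
        have h1 : cs3A ρ τ a (j (σ * g) + 1) g = B g + wOf x g • b := by
          by_cases hw : (x 1 g).val + 1 = p
          · have hw1 : wOf x g = 1 := by simp [wOf, hw]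
            rw [hw1] at hv ⊢
            have hj : j (σ * g) + 1 = j g + p := by
              simp only [j]
              omega
            rw [hj, cs3A_add_p hconst hτb, one_smul]
          · have hw0 : wOf x g = 0 := by simp [wOf, hw]
            rw [hw0] at hv ⊢
            have hj : j (σ * g) + 1 = j g := by
              simp only [j]
              omega
            rw [hj, zero_smul, add_zero]
        have h2 := congrFun (cs3A_succ' (ρ := ρ) τ a (j (σ * g))) g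
        simp only [Pi.add_apply, tw0_apply, hτ, inv_inv] at h2
        rw [← hτ] at h2
        have h3 : B g + wOf x g • b - a g = ρ σ⁻¹ (B (σ * g)) := by
          rw [← h1, h2]
          simp only [B]
          abel
        rw [h3, ← Module.End.mul_apply, ← map_mul, mul_inv_cancel, map_one]; rfl
      simp only [δ]
      rw [hE, hB, hB, tOf_sigma hx hσ hσ1]
      have h5 : (tOf x g₀ g₁ + wOf x g₁ - wOf x g₀) • b =
          ρ σ ((tOf x g₀ g₁ + wOf x g₁ - wOf x g₀) • b) := by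
        rw [map_zsmul, hσb]
      rw [h5, ← map_add, ← map_sub, ← map_sub]
      congr 1
      rw [sub_smul, add_smul]
      abel
  · -- smoothness
    obtain ⟨U₁, hU₁, hs₁⟩ := he.2
    obtain ⟨U₂, hU₂, hs₂⟩ := ha.2
    obtain ⟨U₃, hU₃, hs₃⟩ := smooth_x_one hx
    obtain ⟨U₄, hU₄, hs₄⟩ := smooth_tOf hx
    obtain ⟨W₁, hW₁, h11, h12⟩ := L.directed' U₁ hU₁ U₂ hU₂
    obtain ⟨W₂, hW₂, h21, h22⟩ := L.directed' U₃ hU₃ U₄ hU₄
    obtain ⟨W₃, hW₃, h31, h32⟩ := L.directed' W₁ hW₁ W₂ hW₂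
    refine ⟨W₃, hW₃, fun g₀ g₁ u₀ h₀ u₁ h₁ => ?_⟩
    have hB : ∀ g, ∀ u ∈ W₃, B (g * u) = B g := by
      intro g u hu
      have hj : j (g * u) = j g := by
        have h3 : x 1 (g * u) = x 1 g := hs₃ g u (h21 (h32 hu))
        simp only [j]
        rw [h3]
      simp only [B]
      rw [hj]
      exact cs3A_smooth hs₂ _ g u (h12 (h31 hu))
    simp only [δ]
    rw [hs₁ g₀ g₁ u₀ (h11 (h31 h₀)) u₁ (h11 (h31 h₁)), hB _ _ h₀, hB _ _ h₁,
      hs₄ g₀ g₁ u₀ (h22 (h32 h₀)) u₁ (h22 (h32 h₁))]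

end Fermat.Agent.PT
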