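/-
S55 block B (tower part), task T1: existence of characters as cocycles.
Every homomorphism `χ : V → ℤ/p` which is trivial on `V ∩ U` for a level `U` is `v ↦ x 1 v` for a
cocycle `x ∈ Z1 L V (trivZ p G)`.
-/
import Fermat.Agent.PT.B.CycDefs

set_option autoImplicit false
set_option linter.unusedSectionVars false

namespace Fermat.Agent.PT

variable {G : Type*} [Group G] {L : LevelSystem G} {p : ℕ} [Fact p.Prime]

/-- A smooth function `m : G → ZMod p` with `m (v g) = m v + m g` (`v ∈ V`) gives the cocycle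
`x g₀ g₁ = m g₁ - m g₀`, and `x 1 g = m g`. -/
theorem sub_mem_Z1_of_additive {V : Subgroup G} {m : G → ZMod p} (hs : Smooth0 L m)
    (hm : ∀ v ∈ V, ∀ g, m (v * g) = m v + m g) :
    (fun g₀ g₁ => m g₁ - m g₀) ∈ Z1 L V (trivZ p G) ∧ m 1 = 0 := by
  refine ⟨mem_Z1.mpr ⟨mem_X1.mpr ⟨?_, ?_⟩, ?_⟩, ?_⟩
  · intro v hv g₀ g₁
    show m (v * g₁) - m (v * g₀) = m g₁ - m g₀
    rw [hm v hv, hm v hv]
    ring
  · obtain ⟨U, hU, h⟩ := hs
    refine ⟨U, hU, fun g₀ g₁ u₀ h₀ u₁ h₁ => ?_⟩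
    show m (g₁ * u₁) - m (g₀ * u₀) = m g₁ - m g₀
    rw [h _ _ h₀, h _ _ h₁]
  · funext g₀ g₁ g₂
    simp only [d1_apply, Pi.zero_apply]
    ring
  · have := hm 1 V.one_mem 1
    rw [mul_one] at this
    linear_combination -this

namespace CharExists

variable (V U : Subgroup G) (χ : V →* Multiplicative (ZMod p))

open Classical in
/-- the extension of `χ` to `V U` (junk value `0` outside). -/
noncomputable def psi (g : G) : ZMod p :=
  if h : ∃ v : V, (v : G)⁻¹ * g ∈ U then Multiplicative.toAdd (χ h.choose) else 0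

variable {V U χ}

theorem psi_eq (hχ : ∀ v : V, (v : G) ∈ U → χ v = 1) {g : G} (v : V) (hv : (v : G)⁻¹ * g ∈ U) :
    psi V U χ g = Multiplicative.toAdd (χ v) := by
  have h : ∃ v : V, (v : G)⁻¹ * g ∈ U := ⟨v, hv⟩
  unfold psi
  rw [dif_pos h]
  have h1 := h.choose_spec
  have h2 : (((h.choose)⁻¹ * v : V) : G) ∈ U := by
    have : (((h.choose)⁻¹ * v : V) : G) = ((h.choose : G)⁻¹ * g) * ((v : G)⁻¹ * g)⁻¹ := by
      push_cast
      group
    rw [this]
    exact U.mul_mem h1 (U.inv_mem hv)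
  have h3 := hχ _ h2
  rw [map_mul, map_inv, inv_mul_eq_one] at h3
  rw [h3]

variable (V U)

/-- representatives of the right cosets of `V ⊔ U`. -/
noncomputable def rep (g : G) : G :=
  (Quotient.mk (QuotientGroup.rightRel (V ⊔ U)) g).out

variable {V U}

theorem mul_rep_inv_mem (g : G) : g * (rep V U g)⁻¹ ∈ V ⊔ U := by
  have h : (QuotientGroup.rightRel (V ⊔ U)).r (rep V U g) g :=
    Quotient.exact (Quotient.out_eq (Quotient.mk (QuotientGroup.rightRel (V ⊔ U)) g))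
  exact QuotientGroup.rightRel_apply.mp h

theorem rep_mul_left {w : G} (hw : w ∈ V ⊔ U) (g : G) : rep V U (w * g) = rep V U g := by
  unfold rep
  congr 1
  apply Quotient.sound
  show (QuotientGroup.rightRel (V ⊔ U)).r (w * g) g
  rw [QuotientGroup.rightRel_apply]
  have : g * (w * g)⁻¹ = w⁻¹ := by group
  rw [this]
  exact (V ⊔ U).inv_mem hw

theorem rep_mul_right [U.Normal] {u : G} (hu : u ∈ U) (g : G) : rep V U (g * u) = rep V U g := by
  have h1 : g * u = (g * u * g⁻¹) * g := by group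
  rw [h1]
  exact rep_mul_left ((le_sup_right : U ≤ V ⊔ U) (Subgroup.Normal.conj_mem ‹_› u hu g)) g

theorem exists_decomp [U.Normal] {w : G} (hw : w ∈ V ⊔ U) : ∃ v : V, (v : G)⁻¹ * w ∈ U := by
  have hw' : w ∈ ((V ⊔ U : Subgroup G) : Set G) := hw
  rw [Subgroup.mul_normal V U] at hw'
  obtain ⟨v, hv, u, hu, rfl⟩ := Set.mem_mul.mp hw'
  refine ⟨⟨v, hv⟩, ?_⟩
  rw [inv_mul_cancel_left]
  exact hu

variable (V U χ)

/-- `m₀ (v u r) = χ v`. -/
noncomputable def m0 (g : G) : ZMod p := psi V U χ (g * (rep V U g)⁻¹)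

variable {V U χ}

theorem m0_mul_left [U.Normal] (hχ : ∀ v : V, (v : G) ∈ U → χ v = 1) (v' : V) (g : G) :
    m0 V U χ ((v' : G) * g) = Multiplicative.toAdd (χ v') + m0 V U χ g := by
  obtain ⟨v, hv⟩ := exists_decomp (mul_rep_inv_mem (V := V) (U := U) g)
  unfold m0
  rw [rep_mul_left ((le_sup_left : V ≤ V ⊔ U) v'.2), psi_eq hχ v hv, psi_eq hχ (v' * v), map_mul]
  · rfl
  · have : (((v' * v : V) : G))⁻¹ * ((v' : G) * g * (rep V U g)⁻¹)
        = (v : G)⁻¹ * (g * (rep V U g)⁻¹) := by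
      push_cast
      group
    rw [this]
    exact hv

theorem m0_mul_right [U.Normal] (hχ : ∀ v : V, (v : G) ∈ U → χ v = 1) (g : G) {u : G}
    (hu : u ∈ U) : m0 V U χ (g * u) = m0 V U χ g := by
  obtain ⟨v, hv⟩ := exists_decomp (mul_rep_inv_mem (V := V) (U := U) g)
  unfold m0
  rw [rep_mul_right hu, psi_eq hχ v hv, psi_eq hχ v]
  have : (v : G)⁻¹ * (g * u * (rep V U g)⁻¹)
      = ((v : G)⁻¹ * (g * (rep V U g)⁻¹)) * (rep V U g * u * (rep V U g)⁻¹) := by group
  rw [this]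
  exact U.mul_mem hv (Subgroup.Normal.conj_mem ‹_› u hu _)

end CharExists

open CharExists in
/-- PROOF.  `U` is normal, so `V ⊔ U = V U`.  Choose representatives `r` of the right cosets
`(V U) \ G`; for `g = v u r` put `m₀ g = χ v` (well defined since `χ` kills `V ∩ U`); then
`m₀ (v' g) = χ v' + m₀ g`, `m₀ (g u') = m₀ g` (`g u' = v (u r u' r⁻¹) r`); `m := m₀ - m₀ 1`;
conclude with `sub_mem_Z1_of_additive`. -/
theorem exists_Z1_of_hom (V : Subgroup G) {U : Subgroup G} (hU : U ∈ L)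
    (χ : V →* Multiplicative (ZMod p)) (hχ : ∀ v : V, (v : G) ∈ U → χ v = 1) :
    ∃ x ∈ Z1 L V (trivZ p G), ∀ v : V, x 1 (v : G) = Multiplicative.toAdd (χ v) := by
  have hn : U.Normal := L.normal' U hU
  let m : G → ZMod p := fun g => m0 V U χ g - m0 V U χ 1
  have hmv : ∀ v : V, m (v : G) = Multiplicative.toAdd (χ v) := by
    intro v
    have := m0_mul_left hχ v 1
    rw [mul_one] at this
    show m0 V U χ (v : G) - m0 V U χ 1 = _
    rw [this]
    ring
  have hs : Smooth0 L m := ⟨U, hU, fun g u hu => by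
    show m0 V U χ (g * u) - m0 V U χ 1 = m0 V U χ g - m0 V U χ 1
    rw [m0_mul_right hχ g hu]⟩
  have hm : ∀ v ∈ V, ∀ g, m (v * g) = m v + m g := by
    intro v hv g
    rw [hmv ⟨v, hv⟩]
    show m0 V U χ (v * g) - m0 V U χ 1 = _ + (m0 V U χ g - m0 V U χ 1)
    rw [m0_mul_left hχ ⟨v, hv⟩ g]
    ring
  obtain ⟨h1, h2⟩ := sub_mem_Z1_of_additive hs hm
  refine ⟨_, h1, fun v => ?_⟩
  show m (v : G) - m 1 = _
  rw [h2, sub_zero, hmv]

/-- A relatively normal subgroup `V'` of index `p` of `V` containing `V ∩ U` is the kernel of a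
character.  (`V / V'` has prime order, hence is cyclic, `≃* Multiplicative (ZMod p)`; compose with
the projection, apply `exists_Z1_of_hom` and `mem_kerOf_iff`.) -/
theorem exists_Z1_of_relIndex {V V' : Subgroup G} {U : Subgroup G} (hU : U ∈ L) (hle : V' ≤ V)
    (hUV : V ⊓ U ≤ V') (hn : (V'.subgroupOf V).Normal) (hidx : V'.relIndex V = p) :
    ∃ x ∈ Z1 L V (trivZ p G), kerOf V x = V' := by
  have hcard : Nat.card (V ⧸ V'.subgroupOf V) = p := hidx
  have hcard' : Nat.card (Multiplicative (ZMod p)) = p := by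
    rw [Nat.card_eq_fintype_card, Fintype.card_multiplicative, ZMod.card]
  let e : (V ⧸ V'.subgroupOf V) ≃* Multiplicative (ZMod p) := mulEquivOfPrimeCardEq hcard hcard'
  let χ : V →* Multiplicative (ZMod p) := e.toMonoidHom.comp (QuotientGroup.mk' _)
  have hχ1 : ∀ v : V, χ v = 1 ↔ (v : G) ∈ V' := by
    intro v
    show e (QuotientGroup.mk' _ v) = 1 ↔ _
    rw [EmbeddingLike.map_eq_one_iff, QuotientGroup.mk'_apply, QuotientGroup.eq_one_iff,
      Subgroup.mem_subgroupOf]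
  obtain ⟨x, hx, hxv⟩ := exists_Z1_of_hom V hU χ fun v hv => (hχ1 v).mpr (hUV ⟨v.2, hv⟩)
  refine ⟨x, hx, ?_⟩
  ext g
  rw [mem_kerOf_iff hx]
  constructor
  · rintro ⟨hgV, hg0⟩
    have := hxv ⟨g, hgV⟩
    rw [hg0] at this
    exact (hχ1 ⟨g, hgV⟩).mp (Multiplicative.toAdd.injective this.symm)
  · intro hg
    refine ⟨hle hg, ?_⟩
    rw [hxv ⟨g, hle hg⟩, (hχ1 ⟨g, hle hg⟩).mpr hg]
    rfl

end Fermat.Agent.PT
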