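/-
S55 block B (tower part), task T4: restriction to a subgroup of index prime to `p` is injective.
-/
import Fermat.Agent.PT.Coh.Cores
import Fermat.Agent.PT.B.Setup

set_option autoImplicit false
set_option linter.unusedSectionVars false

namespace Fermat.Agent.PT

variable {k G A : Type*} [CommRing k] [Group G] [AddCommGroup A] [Module k A]
  {L : LevelSystem G} {ρ : Representation k G A}

theorem Coprime_finite_cosetsIn {V₀ V : Subgroup G} (hfin : V₀.relIndex V ≠ 0) :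
    Finite (CosetsIn V V₀) := by
  have : (V₀.subgroupOf V).FiniteIndex := ⟨hfin⟩
  exact Subgroup.finite_quotient_of_finiteIndex

/-- PROOF.  `z = d1 h`, `h ∈ X1 L V₀ ρ`.  `cor1 ρ V V₀ h ∈ X1 L V ρ` (`cor1_mem`),
`d1 (cor1 h) = cor2 (d1 h) = cor2 z` (`d1_cor1`) and `cor2 ρ V V₀ z = n • z`, `n = V₀.relIndex V`,
because every `tw2 ρ c z = z` for `c ∈ V` (`tw2_of_mem`).  Multiply by the inverse of `(n : k)`. -/
theorem mem_B2_of_relIndex_isUnit {V₀ V : Subgroup G} (hle : V₀ ≤ V) (hfin : V₀.relIndex V ≠ 0)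
    (hu : IsUnit ((V₀.relIndex V : ℕ) : k)) {z : G → G → G → A} (hz : z ∈ X2 L V ρ)
    (h : z ∈ B2 L V₀ ρ) : z ∈ B2 L V ρ := by
  have := Coprime_finite_cosetsIn hfin
  obtain ⟨e, he, rfl⟩ := h
  obtain ⟨u, hu⟩ := hu
  have h1 : cor1 ρ V V₀ e ∈ X1 L V ρ := cor1_mem he
  have h2 : d1 (k := k) (cor1 ρ V V₀ e) = (V₀.relIndex V) • d1 (k := k) e := by
    rw [d1_cor1, Cores_cor2_of_mem L ρ hle hz]
  refine ⟨(↑u⁻¹ : k) • cor1 ρ V V₀ e, (X1 L V ρ).smul_mem _ h1, ?_⟩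
  rw [map_smul, h2, ← Nat.cast_smul_eq_nsmul k, ← hu, smul_smul, Units.inv_mul, one_smul]

theorem mem_B1_of_relIndex_isUnit {V₀ V : Subgroup G} (hle : V₀ ≤ V) (hfin : V₀.relIndex V ≠ 0)
    (hu : IsUnit ((V₀.relIndex V : ℕ) : k)) {z : G → G → A} (hz : z ∈ X1 L V ρ)
    (h : z ∈ B1 L V₀ ρ) : z ∈ B1 L V ρ := by
  have := Coprime_finite_cosetsIn hfin
  obtain ⟨e, he, rfl⟩ := h
  obtain ⟨u, hu⟩ := hu
  have h1 : cor0 ρ V V₀ e ∈ X0 L V ρ := cor0_mem he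
  have h2 : d0 (k := k) (cor0 ρ V V₀ e) = (V₀.relIndex V) • d0 (k := k) e := by
    rw [d0_cor0, Cores_cor1_of_mem L ρ hle hz]
  refine ⟨(↑u⁻¹ : k) • cor0 ρ V V₀ e, (X0 L V ρ).smul_mem _ h1, ?_⟩
  rw [map_smul, h2, ← Nat.cast_smul_eq_nsmul k, ← hu, smul_smul, Units.inv_mul, one_smul]

end Fermat.Agent.PT
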