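/-
S55 block B: division by `p` on equivariant smooth cochains, transport along `ι`.
-/
import Fermat.Agent.PT.B.Setup

set_option autoImplicit false
set_option linter.unusedSectionVars false

namespace Fermat.Agent.PT

section

variable {G : Type*} [Group G] {L : LevelSystem G} {p : ℕ} [Fact p.Prime]
variable {A : Type*} [AddCommGroup A] {ρ : Representation ℤ G A}
variable {T : Type*} [AddCommGroup T] [Module (ZMod p) T] {τ : Representation (ZMod p) G T}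
variable {ι : T →+ A}

/-- In a smooth representation finitely many vectors are fixed by a common level. -/
theorem IsSmoothRep.exists_level_finite {k B : Type*} [CommRing k] [AddCommGroup B] [Module k B]
    {σ : Representation k G B} (h : IsSmoothRep L σ) (C : Set B) (hC : C.Finite) :
    ∃ U ∈ L, ∀ u ∈ U, ∀ c ∈ C, σ u c = c := by
  induction C, hC using Set.Finite.induction_on with
  | empty =>
    obtain ⟨U, hU⟩ := L.nonempty'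
    exact ⟨U, hU, fun _ _ c hc => absurd hc (Set.notMem_empty c)⟩
  | @insert a C _ _ ih =>
    obtain ⟨U, hU, h1⟩ := ih
    obtain ⟨U', hU', h2⟩ := h a
    obtain ⟨W, hW, w1, w2⟩ := L.directed' U hU U' hU'
    refine ⟨W, hW, fun u hu c hc => ?_⟩
    rcases Set.mem_insert_iff.mp hc with rfl | hc
    · exact h2 u (w2 hu)
    · exact h1 u (w1 hu) c hc

/-- In a smooth representation orbits are finite. -/
theorem IsSmoothRep.finite_orbit_one {k B : Type*} [CommRing k] [AddCommGroup B] [Module k B]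
    {σ : Representation k G B} (h : IsSmoothRep L σ) (c : B) :
    (Set.range fun g : G => σ g c).Finite := by
  obtain ⟨U, hU, hfix⟩ := h c
  have hfi : U.FiniteIndex := L.finiteIndex' U hU
  refine (Set.finite_range (fun q : G ⧸ U => σ q.out c)).subset ?_
  rintro _ ⟨g, rfl⟩
  obtain ⟨u, hu⟩ := QuotientGroup.mk_out_eq_mul U g
  refine ⟨(g : G ⧸ U), ?_⟩
  simp only [hu, map_mul, Module.End.mul_apply, hfix u.1 u.2]

/-- a smooth function takes finitely many values -/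
theorem lift_finite_range0 {B : Type*} {f : G → B} {U : Subgroup G} (hU : U ∈ L)
    (hf : ∀ g₀, ∀ u₀ ∈ U, f (g₀ * u₀) = f g₀) : (Set.range f).Finite := by
  have hfi : U.FiniteIndex := L.finiteIndex' U hU
  refine (Set.finite_range (fun q : G ⧸ U => f q.out)).subset ?_
  rintro _ ⟨g, rfl⟩
  obtain ⟨u, hu⟩ := QuotientGroup.mk_out_eq_mul U g
  refine ⟨(g : G ⧸ U), ?_⟩
  simp only [hu, hf g u.1 u.2]

theorem lift_finite_range1 {B : Type*} {f : G → G → B} {U : Subgroup G} (hU : U ∈ L)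
    (hf : ∀ g₀ g₁, ∀ u₀ ∈ U, ∀ u₁ ∈ U, f (g₀ * u₀) (g₁ * u₁) = f g₀ g₁) :
    (Set.range fun x : G × G => f x.1 x.2).Finite := by
  have hfi : U.FiniteIndex := L.finiteIndex' U hU
  refine (Set.finite_range (fun q : (G ⧸ U) × (G ⧸ U) => f q.1.out q.2.out)).subset ?_
  rintro _ ⟨⟨g, g'⟩, rfl⟩
  obtain ⟨u, hu⟩ := QuotientGroup.mk_out_eq_mul U g
  obtain ⟨u', hu'⟩ := QuotientGroup.mk_out_eq_mul U g'
  refine ⟨((g : G ⧸ U), (g' : G ⧸ U)), ?_⟩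
  simp only [hu, hu', hf g g' u.1 u.2 u'.1 u'.2]

theorem lift_exists_level_fix0 {k B : Type*} [CommRing k] [AddCommGroup B] [Module k B]
    {σ : Representation k G B} (h : IsSmoothRep L σ) {f : G → B} (hf : Smooth0 L f) :
    ∃ U ∈ L, (∀ g₀, ∀ u₀ ∈ U, f (g₀ * u₀) = f g₀) ∧ ∀ g₀, ∀ u ∈ U, σ u (f g₀) = f g₀ := by
  obtain ⟨U, hU, hs⟩ := hf
  obtain ⟨U', hU', hfix⟩ := h.exists_level_finite _ (lift_finite_range0 hU hs)
  obtain ⟨W, hW, w1, w2⟩ := L.directed' U hU U' hU'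
  exact ⟨W, hW, fun g₀ u₀ h₀ => hs g₀ u₀ (w1 h₀), fun g₀ u hu => hfix u (w2 hu) _ ⟨g₀, rfl⟩⟩

theorem lift_exists_level_fix1 {k B : Type*} [CommRing k] [AddCommGroup B] [Module k B]
    {σ : Representation k G B} (h : IsSmoothRep L σ) {f : G → G → B} (hf : Smooth1 L f) :
    ∃ U ∈ L, (∀ g₀ g₁, ∀ u₀ ∈ U, ∀ u₁ ∈ U, f (g₀ * u₀) (g₁ * u₁) = f g₀ g₁) ∧
      ∀ g₀ g₁, ∀ u ∈ U, σ u (f g₀ g₁) = f g₀ g₁ := by
  obtain ⟨U, hU, hs⟩ := hf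
  obtain ⟨U', hU', hfix⟩ := h.exists_level_finite _ (lift_finite_range1 hU hs)
  obtain ⟨W, hW, w1, w2⟩ := L.directed' U hU U' hU'
  exact ⟨W, hW, fun g₀ g₁ u₀ h₀ u₁ h₁ => hs g₀ g₁ u₀ (w1 h₀) u₁ (w1 h₁),
    fun g₀ g₁ u hu => hfix u (w2 hu) _ ⟨(g₀, g₁), rfl⟩⟩

theorem lift_rho_mul (g h : G) (a : A) : ρ (g * h) a = ρ g (ρ h a) := by
  rw [map_mul, Module.End.mul_apply]

theorem lift_rho_inv_self (g : G) (a : A) : ρ g⁻¹ (ρ g a) = a := by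
  rw [← lift_rho_mul, inv_mul_cancel, map_one, Module.End.one_apply]

theorem lift_rho_self_inv (g : G) (a : A) : ρ g (ρ g⁻¹ a) = a := by
  rw [← lift_rho_mul, mul_inv_cancel, map_one, Module.End.one_apply]

namespace KummerSetup

variable (K : KummerSetup L p ρ τ ι)
include K

/-- equivariant division by `p` of a `0`-cochain -/
noncomputable def lift0 (a : G → A) (g : G) : A := ρ g (K.s (ρ g⁻¹ (a g)))

/-- equivariant division by `p` of a `1`-cochain -/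
noncomputable def lift1 (a : G → G → A) (g₀ g₁ : G) : A := ρ g₀ (K.s (ρ g₀⁻¹ (a g₀ g₁)))

lemma p_smul_lift0 (a : G → A) : p • K.lift0 a = a := by
  funext g
  rw [Pi.smul_apply, lift0, ← map_nsmul, p_smul_s, lift_rho_self_inv]

lemma p_smul_lift1 (a : G → G → A) : p • K.lift1 a = a := by
  funext g₀ g₁
  rw [Pi.smul_apply, Pi.smul_apply, lift1, ← map_nsmul, p_smul_s, lift_rho_self_inv]

theorem lift0_mem {V : Subgroup G} {a : G → A} (ha : a ∈ X0 L V ρ) : K.lift0 a ∈ X0 L V ρ := by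
  obtain ⟨heq, hsm⟩ := ha
  refine ⟨fun v hv g₀ => ?_, ?_⟩
  · simp only [lift0, heq v hv g₀, mul_inv_rev, lift_rho_mul, lift_rho_inv_self]
  · obtain ⟨U, hU, h1, h2⟩ := lift_exists_level_fix0 K.smooth hsm
    have hn : U.Normal := L.normal' U hU
    have hc : Smooth0 L (fun g₀ => K.s (ρ g₀⁻¹ (a g₀))) := by
      refine ⟨U, hU, fun g₀ u₀ h₀ => ?_⟩
      have hconj : g₀ * u₀⁻¹ * g₀⁻¹ ∈ U := hn.conj_mem _ (U.inv_mem h₀) g₀
      have : (g₀ * u₀)⁻¹ = g₀⁻¹ * (g₀ * u₀⁻¹ * g₀⁻¹) := by group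
      simp only [h1 g₀ u₀ h₀]
      rw [this, lift_rho_mul, h2 g₀ _ hconj]
    obtain ⟨U', hU', k1, k2⟩ := lift_exists_level_fix0 K.smooth hc
    refine ⟨U', hU', fun g₀ u₀ h₀ => ?_⟩
    have := k1 g₀ u₀ h₀
    simp only [lift0] at this ⊢
    rw [this, lift_rho_mul, k2 g₀ u₀ h₀]

theorem lift1_mem {V : Subgroup G} {a : G → G → A} (ha : a ∈ X1 L V ρ) :
    K.lift1 a ∈ X1 L V ρ := by
  obtain ⟨heq, hsm⟩ := ha
  refine ⟨fun v hv g₀ g₁ => ?_, ?_⟩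
  · simp only [lift1, heq v hv g₀ g₁, mul_inv_rev, lift_rho_mul, lift_rho_inv_self]
  · obtain ⟨U, hU, h1, h2⟩ := lift_exists_level_fix1 K.smooth hsm
    have hn : U.Normal := L.normal' U hU
    have hc : Smooth1 L (fun g₀ g₁ => K.s (ρ g₀⁻¹ (a g₀ g₁))) := by
      refine ⟨U, hU, fun g₀ g₁ u₀ h₀ u₁ h₁ => ?_⟩
      have hconj : g₀ * u₀⁻¹ * g₀⁻¹ ∈ U := hn.conj_mem _ (U.inv_mem h₀) g₀
      have : (g₀ * u₀)⁻¹ = g₀⁻¹ * (g₀ * u₀⁻¹ * g₀⁻¹) := by group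
      simp only [h1 g₀ g₁ u₀ h₀ u₁ h₁]
      rw [this, lift_rho_mul, h2 g₀ g₁ _ hconj]
    obtain ⟨U', hU', k1, k2⟩ := lift_exists_level_fix1 K.smooth hc
    refine ⟨U', hU', fun g₀ g₁ u₀ h₀ u₁ h₁ => ?_⟩
    have := k1 g₀ g₁ u₀ h₀ u₁ h₁
    simp only [lift1] at this ⊢
    rw [this, lift_rho_mul, k2 g₀ g₁ u₀ h₀]

lemma eK_eq_lift0 (b : A) : K.eK b = K.lift0 (fun _ => b) := rfl

theorem eK_mem_X0 {V : Subgroup G} {b : A} (hb : ∀ v ∈ V, ρ v b = b) : K.eK b ∈ X0 L V ρ := by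
  rw [eK_eq_lift0]
  apply K.lift0_mem
  obtain ⟨U, hU⟩ := L.nonempty'
  exact ⟨fun v hv _ => (hb v hv).symm, U, hU, fun _ _ _ => rfl⟩

/-! transport along `ι` -/

theorem ι_comp_mem_X0_iff {V : Subgroup G} {f : G → T} :
    (fun g₀ => ι (f g₀)) ∈ X0 L V ρ ↔ f ∈ X0 L V τ := by
  constructor
  · rintro ⟨he, U, hU, hs⟩
    refine ⟨fun v hv g₀ => K.inj ?_, U, hU, fun g₀ u₀ h₀ => K.inj (hs g₀ u₀ h₀)⟩
    rw [K.equiv]; exact he v hv g₀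
  · rintro ⟨he, U, hU, hs⟩
    refine ⟨fun v hv g₀ => ?_, U, hU, fun g₀ u₀ h₀ => ?_⟩
    · simp only [he v hv g₀, K.equiv]
    · simp only [hs g₀ u₀ h₀]

theorem ι_comp_mem_X1_iff {V : Subgroup G} {f : G → G → T} :
    (fun g₀ g₁ => ι (f g₀ g₁)) ∈ X1 L V ρ ↔ f ∈ X1 L V τ := by
  constructor
  · rintro ⟨he, U, hU, hs⟩
    refine ⟨fun v hv g₀ g₁ => K.inj ?_, U, hU,
      fun g₀ g₁ u₀ h₀ u₁ h₁ => K.inj (hs g₀ g₁ u₀ h₀ u₁ h₁)⟩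
    rw [K.equiv]; exact he v hv g₀ g₁
  · rintro ⟨he, U, hU, hs⟩
    refine ⟨fun v hv g₀ g₁ => ?_, U, hU, fun g₀ g₁ u₀ h₀ u₁ h₁ => ?_⟩
    · simp only [he v hv g₀ g₁, K.equiv]
    · simp only [hs g₀ g₁ u₀ h₀ u₁ h₁]

theorem ι_comp_mem_X2_iff {V : Subgroup G} {f : G → G → G → T} :
    (fun g₀ g₁ g₂ => ι (f g₀ g₁ g₂)) ∈ X2 L V ρ ↔ f ∈ X2 L V τ := by
  constructor
  · rintro ⟨he, U, hU, hs⟩
    refine ⟨fun v hv g₀ g₁ g₂ => K.inj ?_, U, hU,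
      fun g₀ g₁ g₂ u₀ h₀ u₁ h₁ u₂ h₂ => K.inj (hs g₀ g₁ g₂ u₀ h₀ u₁ h₁ u₂ h₂)⟩
    rw [K.equiv]; exact he v hv g₀ g₁ g₂
  · rintro ⟨he, U, hU, hs⟩
    refine ⟨fun v hv g₀ g₁ g₂ => ?_, U, hU, fun g₀ g₁ g₂ u₀ h₀ u₁ h₁ u₂ h₂ => ?_⟩
    · simp only [he v hv g₀ g₁ g₂, K.equiv]
    · simp only [hs g₀ g₁ g₂ u₀ h₀ u₁ h₁ u₂ h₂]

/-- A `p`-torsion valued `0`-cochain comes from `T`. -/
theorem exists_of_p_smul_X0 {V : Subgroup G} {a : G → A} (ha : a ∈ X0 L V ρ) (hp : p • a = 0) :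
    ∃ f ∈ X0 L V τ, ∀ g₀, ι (f g₀) = a g₀ := by
  have h : ∀ g₀, ι (K.ιinv (a g₀)) = a g₀ := fun g₀ => K.ι_ιinv (congrFun hp g₀)
  refine ⟨fun g₀ => K.ιinv (a g₀), K.ι_comp_mem_X0_iff.mp ?_, h⟩
  simpa only [h] using ha

theorem exists_of_p_smul_X1 {V : Subgroup G} {a : G → G → A} (ha : a ∈ X1 L V ρ)
    (hp : p • a = 0) : ∃ f ∈ X1 L V τ, ∀ g₀ g₁, ι (f g₀ g₁) = a g₀ g₁ := by
  have h : ∀ g₀ g₁, ι (K.ιinv (a g₀ g₁)) = a g₀ g₁ :=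
    fun g₀ g₁ => K.ι_ιinv (congrFun (congrFun hp g₀) g₁)
  refine ⟨fun g₀ g₁ => K.ιinv (a g₀ g₁), K.ι_comp_mem_X1_iff.mp ?_, h⟩
  simpa only [h] using ha

theorem exists_of_p_smul_X2 {V : Subgroup G} {a : G → G → G → A} (ha : a ∈ X2 L V ρ)
    (hp : p • a = 0) : ∃ f ∈ X2 L V τ, ∀ g₀ g₁ g₂, ι (f g₀ g₁ g₂) = a g₀ g₁ g₂ := by
  have h : ∀ g₀ g₁ g₂, ι (K.ιinv (a g₀ g₁ g₂)) = a g₀ g₁ g₂ :=
    fun g₀ g₁ g₂ => K.ι_ιinv (congrFun (congrFun (congrFun hp g₀) g₁) g₂)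
  refine ⟨fun g₀ g₁ g₂ => K.ιinv (a g₀ g₁ g₂), K.ι_comp_mem_X2_iff.mp ?_, h⟩
  simpa only [h] using ha

lemma ι_d0 (f : G → T) (g₀ g₁ : G) :
    ι (d0 (k := ZMod p) f g₀ g₁) = d0 (k := ℤ) (fun g => ι (f g)) g₀ g₁ := by
  simp

lemma ι_d1 (f : G → G → T) (g₀ g₁ g₂ : G) :
    ι (d1 (k := ZMod p) f g₀ g₁ g₂) = d1 (k := ℤ) (fun g g' => ι (f g g')) g₀ g₁ g₂ := by
  simp

lemma ι_d2 (f : G → G → G → T) (g₀ g₁ g₂ g₃ : G) :
    ι (d2 (k := ZMod p) f g₀ g₁ g₂ g₃) =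
      d2 (k := ℤ) (fun g g' g'' => ι (f g g' g'')) g₀ g₁ g₂ g₃ := by
  simp

end KummerSetup

end

end Fermat.Agent.PT
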