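/-
S55 block B: `H²(V,T) → H²(V,A)` is injective with image the `p`-torsion.
-/
import Fermat.Agent.PT.B.Lift

set_option autoImplicit false
set_option linter.unusedSectionVars false

namespace Fermat.Agent.PT

namespace KummerSetup

variable {G : Type*} [Group G] {L : LevelSystem G} {p : ℕ} [Fact p.Prime]
variable {A : Type*} [AddCommGroup A] {ρ : Representation ℤ G A}
variable {T : Type*} [AddCommGroup T] [Module (ZMod p) T] {τ : Representation (ZMod p) G T}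
variable {ι : T →+ A} (K : KummerSetup L p ρ τ ι)
include K

theorem H2_inj {V : Subgroup G} {f : G → G → G → T}
    (h : (fun g₀ g₁ g₂ => ι (f g₀ g₁ g₂)) ∈ B2 L V ρ) : f ∈ B2 L V τ := by
  obtain ⟨e, he, hde⟩ := h
  -- `p e` is a cocycle
  have hpe : p • e ∈ Z1 L V ρ := by
    refine ⟨(X1 L V ρ).smul_of_tower_mem p he, ?_⟩
    show d1 (k := ℤ) (p • e) = 0
    rw [map_nsmul, hde]
    funext g₀ g₁ g₂
    exact K.p_smul_ι _
  obtain ⟨a, ha, hda⟩ := K.h90 V hpe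
  have ha1 : K.lift0 a ∈ X0 L V ρ := K.lift0_mem ha
  have hpa1 : p • K.lift0 a = a := K.p_smul_lift0 a
  have he' : e - d0 (k := ℤ) (K.lift0 a) ∈ X1 L V ρ := (X1 L V ρ).sub_mem he (d0_mem ha1)
  have hpe' : p • (e - d0 (k := ℤ) (K.lift0 a)) = 0 := by
    rw [smul_sub, ← map_nsmul, hpa1, hda, sub_self]
  obtain ⟨n, hn, hιn⟩ := K.exists_of_p_smul_X1 he' hpe'
  refine ⟨n, hn, ?_⟩
  funext g₀ g₁ g₂
  apply K.inj
  rw [K.ι_d1]
  have h1 : (fun g g' => ι (n g g')) = e - d0 (k := ℤ) (K.lift0 a) := by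
    funext g g'
    exact hιn g g'
  rw [h1, map_sub, d1_d0, sub_zero, hde]

theorem exists_Z2_of_p_smul_mem_B2 {V : Subgroup G} {z : G → G → G → A} (hz : z ∈ Z2 L V ρ)
    (h : p • z ∈ B2 L V ρ) :
    ∃ f ∈ Z2 L V τ, (fun g₀ g₁ g₂ => ι (f g₀ g₁ g₂)) - z ∈ B2 L V ρ := by
  obtain ⟨e, he, hde⟩ := h
  have he1 : K.lift1 e ∈ X1 L V ρ := K.lift1_mem he
  have hpe1 : p • K.lift1 e = e := K.p_smul_lift1 e
  have hz' : z - d1 (k := ℤ) (K.lift1 e) ∈ X2 L V ρ := (X2 L V ρ).sub_mem hz.1 (d1_mem he1)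
  have hpz' : p • (z - d1 (k := ℤ) (K.lift1 e)) = 0 := by
    rw [smul_sub, ← map_nsmul, hpe1, hde, sub_self]
  obtain ⟨f0, hf0, hιf0⟩ := K.exists_of_p_smul_X2 hz' hpz'
  have h1 : (fun g g' g'' => ι (f0 g g' g'')) = z - d1 (k := ℤ) (K.lift1 e) := by
    funext g g' g''
    exact hιf0 g g' g''
  refine ⟨f0, ⟨hf0, ?_⟩, ?_⟩
  · show d2 (k := ZMod p) f0 = 0
    funext g₀ g₁ g₂ g₃
    apply K.inj
    rw [K.ι_d2, h1, map_sub, d2_d1, sub_zero, (mem_Z2.mp hz).2]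
    simp
  · rw [h1]
    refine ⟨-K.lift1 e, (X1 L V ρ).neg_mem he1, ?_⟩
    rw [map_neg]
    abel

end KummerSetup

end Fermat.Agent.PT
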