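/-
S55 block B: the abstract Kummer map `b ↦ [kum b]`, `A^V / p ≃ H¹(V, T)`.
-/
import Fermat.Agent.PT.B.Lift

set_option autoImplicit false
set_option linter.unusedSectionVars false

namespace Fermat.Agent.PT

namespace KummerSetup

variable {G : Type*} [Group G] {L : LevelSystem G} {p : ℕ} [Fact p.Prime]
variable {A : Type*} [AddCommGroup A] {ρ : Representation ℤ G A}
variable {T : Type*} [AddCommGroup T] [Module (ZMod p) T] {τ : Representation (ZMod p) G T}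
variable {ι : T →+ A} (K : KummerSetup L p ρ τ ι)
include K

theorem kum_mem_Z1 {V : Subgroup G} {b : A} (hb : ∀ v ∈ V, ρ v b = b) :
    K.kum b ∈ Z1 L V τ := by
  have h1 : (fun g₀ g₁ => ι (K.kum b g₀ g₁)) = d0 (k := ℤ) (K.eK b) := by
    funext g₀ g₁
    rw [K.ι_kum, d0_apply]
  refine ⟨?_, ?_⟩
  · apply K.ι_comp_mem_X1_iff.1
    rw [h1]
    exact d0_mem (K.eK_mem_X0 hb)
  · show d1 (k := ZMod p) (K.kum b) = 0
    funext g₀ g₁ g₂
    apply K.inj
    rw [K.ι_d1, h1, d1_d0]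
    simp

/-- Relational characterisation of the Kummer class: ANY equivariant smooth `p`-th root `e` of the
constant `b` computes it. -/
theorem kum_char {V : Subgroup G} {b : A} {e : G → A} (he : e ∈ X0 L V ρ)
    (hpe : ∀ g, p • e g = b) {f : G → G → T} (hf : ∀ g₀ g₁, ι (f g₀ g₁) = e g₁ - e g₀) :
    f - K.kum b ∈ B1 L V τ := by
  have hb : ∀ v ∈ V, ρ v b = b := by
    intro v hv
    conv_lhs => rw [← hpe 1]
    rw [map_nsmul, ← he.1 v hv 1, hpe]
  have h1 : e - K.eK b ∈ X0 L V ρ := sub_mem he (K.eK_mem_X0 hb)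
  have h2 : p • (e - K.eK b) = 0 := by
    funext g
    simp only [Pi.smul_apply, Pi.sub_apply, Pi.zero_apply, smul_sub, hpe, K.p_smul_eK, sub_self]
  obtain ⟨n, hn, hn'⟩ := K.exists_of_p_smul_X0 h1 h2
  refine ⟨n, hn, ?_⟩
  funext g₀ g₁
  apply K.inj
  simp only [d0_apply, Pi.sub_apply, map_sub, hn', hf, K.ι_kum]
  abel

theorem kum_add {V : Subgroup G} {b b' : A} (hb : ∀ v ∈ V, ρ v b = b)
    (hb' : ∀ v ∈ V, ρ v b' = b') :
    K.kum (b + b') - (K.kum b + K.kum b') ∈ B1 L V τ := by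
  have h := K.kum_char (V := V) (b := b + b') (e := K.eK b + K.eK b')
    (add_mem (K.eK_mem_X0 hb) (K.eK_mem_X0 hb'))
    (fun g => by simp only [Pi.add_apply, smul_add, K.p_smul_eK])
    (f := K.kum b + K.kum b')
    (fun g₀ g₁ => by simp only [Pi.add_apply, map_add, K.ι_kum]; abel)
  have := neg_mem h
  rwa [neg_sub] at this

theorem kum_neg {V : Subgroup G} {b : A} (hb : ∀ v ∈ V, ρ v b = b) :
    K.kum (-b) + K.kum b ∈ B1 L V τ := by
  have h := K.kum_char (V := V) (b := -b) (e := -K.eK b)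
    (neg_mem (K.eK_mem_X0 hb))
    (fun g => by simp only [Pi.neg_apply, smul_neg, K.p_smul_eK])
    (f := -K.kum b)
    (fun g₀ g₁ => by simp only [Pi.neg_apply, map_neg, K.ι_kum]; abel)
  have := neg_mem h
  rwa [neg_sub, sub_neg_eq_add] at this

theorem kum_mem_B1_iff {V : Subgroup G} {b : A} (hb : ∀ v ∈ V, ρ v b = b) :
    K.kum b ∈ B1 L V τ ↔ ∃ c, (∀ v ∈ V, ρ v c = c) ∧ p • c = b := by
  constructor
  · rintro ⟨n, hn, hd⟩
    have hn' : (fun g => ι (n g)) ∈ X0 L V ρ := K.ι_comp_mem_X0_iff.2 hn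
    have h1 : K.eK b - (fun g => ι (n g)) ∈ X0 L V ρ := sub_mem (K.eK_mem_X0 hb) hn'
    have hconst : ∀ g, (K.eK b - fun g => ι (n g)) g = (K.eK b - fun g => ι (n g)) 1 := by
      intro g
      have h2 := congrArg ι (congrFun (congrFun hd 1) g)
      rw [K.ι_kum, d0_apply, map_sub] at h2
      simp only [Pi.sub_apply]
      rw [sub_eq_sub_iff_sub_eq_sub, ← h2]
    refine ⟨(K.eK b - fun g => ι (n g)) 1, fun v hv => ?_, ?_⟩
    · rw [← h1.1 v hv 1, hconst]
    · simp only [Pi.sub_apply, smul_sub, K.p_smul_eK, K.p_smul_ι, sub_zero]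
  · rintro ⟨c, hc, hpc⟩
    obtain ⟨U, hU⟩ := L.nonempty'
    have h := K.kum_char (V := V) (b := b) (e := fun _ => c)
      ⟨fun v hv _ => (hc v hv).symm, U, hU, fun _ _ _ => rfl⟩ (fun _ => hpc) (f := 0)
      (fun g₀ g₁ => by simp)
    have := neg_mem h
    rwa [neg_sub, sub_zero] at this

theorem exists_kum {V : Subgroup G} {f : G → G → T} (hf : f ∈ Z1 L V τ) :
    ∃ b, (∀ v ∈ V, ρ v b = b) ∧ f - K.kum b ∈ B1 L V τ := by
  have h1 : (fun g₀ g₁ => ι (f g₀ g₁)) ∈ Z1 L V ρ := by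
    refine ⟨K.ι_comp_mem_X1_iff.2 hf.1, ?_⟩
    show d1 (k := ℤ) (fun g₀ g₁ => ι (f g₀ g₁)) = 0
    funext g₀ g₁ g₂
    rw [← K.ι_d1, (mem_Z1.1 hf).2]
    simp
  obtain ⟨e, he, hde⟩ := K.h90 V h1
  have hfe : ∀ g₀ g₁, ι (f g₀ g₁) = e g₁ - e g₀ := by
    intro g₀ g₁
    have := congrFun (congrFun hde g₀) g₁
    rw [d0_apply] at this
    exact this.symm
  have hconst : ∀ g, p • e g = p • e 1 := by
    intro g
    have := hfe 1 g
    have h2 : p • (e g - e 1) = 0 := by rw [← this, K.p_smul_ι]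
    rw [smul_sub, sub_eq_zero] at h2
    exact h2
  refine ⟨p • e 1, fun v hv => ?_, K.kum_char he hconst hfe⟩
  rw [map_nsmul, ← he.1 v hv 1, hconst]

/-- `kum b 1 v` is the classical Kummer cocycle `v β - β`, `β = s b`, for `v` fixing `b`. -/
theorem ι_kum_one {b : A} {v : G} (hv : ρ v b = b) :
    ι (K.kum b 1 v) = ρ v (K.s b) - K.s b := by
  have hv' : ρ v⁻¹ b = b := by
    conv_lhs => rw [← hv]
    rw [← Module.End.mul_apply, ← map_mul, inv_mul_cancel, map_one]; rfl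
  rw [K.ι_kum, eK, eK, hv']
  simp

end KummerSetup

end Fermat.Agent.PT
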