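/-
S55 block B: the cyclic step, `theta b x = κ(b) ∪ χ` and its comparison with `cB x b`:
   `ι theta + cB = d gammaK`,  `gammaK g₀ g₁ = (x g₀ g₁).val • eK b g₀`.
-/
import Fermat.Agent.PT.B.CycNorm
import Fermat.Agent.PT.B.Kummer
import Fermat.Agent.PT.B.H2inj

set_option autoImplicit false
set_option linter.unusedSectionVars false

namespace Fermat.Agent.PT

section

variable {G : Type*} [Group G] {L : LevelSystem G} {p : ℕ} [Fact p.Prime]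
variable {V : Subgroup G} {x : G → G → ZMod p}
variable {A : Type*} [AddCommGroup A] {ρ : Representation ℤ G A}
variable {T : Type*} [AddCommGroup T] [Module (ZMod p) T] {τ : Representation (ZMod p) G T}

/-- cup product of a `T`-valued `1`-cochain with a `ZMod p`-valued `1`-cochain -/
def cupT (f : G → G → T) (x : G → G → ZMod p) : G → G → G → T :=
  fun g₀ g₁ g₂ => x g₁ g₂ • f g₀ g₁

lemma cupT_mem_Z2 {f : G → G → T} (hf : f ∈ Z1 L V τ) (hx : x ∈ Z1 L V (trivZ p G)) :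
    cupT f x ∈ Z2 L V τ := by
  obtain ⟨⟨hfe, U, hU, hfs⟩, hfd⟩ := mem_Z1.mp hf
  obtain ⟨⟨hxe, U', hU', hxs⟩, hxd⟩ := mem_Z1.mp hx
  obtain ⟨W, hW, h1, h2⟩ := L.directed' U hU U' hU'
  refine mem_Z2.mpr ⟨⟨fun v hv g₀ g₁ g₂ => ?_, W, hW, fun g₀ g₁ g₂ u₀ h₀ u₁ h₁ u₂ h₂ => ?_⟩, ?_⟩
  · show x (v * g₁) (v * g₂) • f (v * g₀) (v * g₁) = τ v (x g₁ g₂ • f g₀ g₁)
    rw [hfe v hv, map_smul]
    congr 1
    exact hxe v hv g₁ g₂
  · show x (g₁ * u₁) (g₂ * u₂) • f (g₀ * u₀) (g₁ * u₁) = x g₁ g₂ • f g₀ g₁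
    rw [hfs _ _ _ (h1 h₀) _ (h1 h₁), hxs _ _ _ (h2 h₁) _ (h2 h₂)]
  · funext g₀ g₁ g₂ g₃
    have e1 := congrFun (congrFun (congrFun hfd g₀) g₁) g₂
    have e2 := congrFun (congrFun (congrFun hxd g₁) g₂) g₃
    simp only [d1_apply, Pi.zero_apply] at e1 e2
    simp only [d2_apply, cupT, Pi.zero_apply]
    have e1' : f g₁ g₂ = f g₀ g₂ - f g₀ g₁ := by
      rw [← sub_eq_zero, ← e1]; abel
    have e2' : x g₁ g₃ = x g₂ g₃ + x g₁ g₂ := by linear_combination (-1 : ZMod p) * e2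
    rw [e1', e2']
    module

lemma cupT_mem_B2_left {f : G → G → T} (hf : f ∈ B1 L V τ) (hx : x ∈ Z1 L V (trivZ p G)) :
    cupT f x ∈ B2 L V τ := by
  obtain ⟨e, ⟨hee, U, hU, hes⟩, rfl⟩ := mem_B1.mp hf
  obtain ⟨⟨hxe, U', hU', hxs⟩, hxd⟩ := mem_Z1.mp hx
  obtain ⟨W, hW, h1, h2⟩ := L.directed' U hU U' hU'
  refine mem_B2.mpr ⟨fun g₀ g₁ => x g₀ g₁ • e g₀,
    ⟨fun v hv g₀ g₁ => ?_, W, hW, fun g₀ g₁ u₀ h₀ u₁ h₁ => ?_⟩, ?_⟩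
  · show x (v * g₀) (v * g₁) • e (v * g₀) = τ v (x g₀ g₁ • e g₀)
    rw [hee v hv, map_smul]
    congr 1
    exact hxe v hv g₀ g₁
  · show x (g₀ * u₀) (g₁ * u₁) • e (g₀ * u₀) = x g₀ g₁ • e g₀
    rw [hes _ _ (h1 h₀), hxs _ _ _ (h2 h₀) _ (h2 h₁)]
  · funext g₀ g₁ g₂
    have e2 := congrFun (congrFun (congrFun hxd g₀) g₁) g₂
    simp only [d1_apply, Pi.zero_apply] at e2
    simp only [d1_apply, d0_apply, cupT]
    have e2' : x g₀ g₂ = x g₁ g₂ + x g₀ g₁ := by linear_combination (-1 : ZMod p) * e2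
    rw [e2']
    module

lemma cupT_mem_B2_right {f : G → G → T} (hf : f ∈ Z1 L V τ) (hx : x ∈ B1 L V (trivZ p G)) :
    cupT f x ∈ B2 L V τ := by
  obtain ⟨⟨hfe, U, hU, hfs⟩, hfd⟩ := mem_Z1.mp hf
  obtain ⟨m, ⟨hme, U', hU', hms⟩, rfl⟩ := mem_B1.mp hx
  obtain ⟨W, hW, h1, h2⟩ := L.directed' U hU U' hU'
  refine mem_B2.mpr ⟨fun g₀ g₁ => -(m g₁ • f g₀ g₁),
    ⟨fun v hv g₀ g₁ => ?_, W, hW, fun g₀ g₁ u₀ h₀ u₁ h₁ => ?_⟩, ?_⟩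
  · show -(m (v * g₁) • f (v * g₀) (v * g₁)) = τ v (-(m g₁ • f g₀ g₁))
    rw [hfe v hv, map_neg, map_smul]
    congr 2
    exact hme v hv g₁
  · show -(m (g₁ * u₁) • f (g₀ * u₀) (g₁ * u₁)) = -(m g₁ • f g₀ g₁)
    rw [hfs _ _ _ (h1 h₀) _ (h1 h₁), hms _ _ (h2 h₁)]
  · funext g₀ g₁ g₂
    have e1 := congrFun (congrFun (congrFun hfd g₀) g₁) g₂
    simp only [d1_apply, Pi.zero_apply] at e1
    simp only [d1_apply, d0_apply, cupT]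
    have e1' : f g₁ g₂ = f g₀ g₂ - f g₀ g₁ := by
      rw [← sub_eq_zero, ← e1]; abel
    rw [e1']
    module

lemma cupT_add_left (f f' : G → G → T) (x : G → G → ZMod p) :
    cupT (f + f') x = cupT f x + cupT f' x := by
  funext g₀ g₁ g₂
  simp [cupT, smul_add]

lemma cupT_sub_left (f f' : G → G → T) (x : G → G → ZMod p) :
    cupT (f - f') x = cupT f x - cupT f' x := by
  funext g₀ g₁ g₂
  simp [cupT, smul_sub]

lemma cupT_add_right (f : G → G → T) (x x' : G → G → ZMod p) :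
    cupT f (x + x') = cupT f x + cupT f x' := by
  funext g₀ g₁ g₂
  simp [cupT, add_smul]

lemma cupT_smul_right (f : G → G → T) (c : ZMod p) (x : G → G → ZMod p) :
    cupT f (c • x) = c • cupT f x := by
  funext g₀ g₁ g₂
  simp [cupT, mul_smul]

variable {ι : T →+ A}

namespace KummerSetup

variable (K : KummerSetup L p ρ τ ι)
include K

/-- `theta b x = κ(b) ∪ χ` -/
noncomputable def theta (b : A) (x : G → G → ZMod p) : G → G → G → T := cupT (K.kum b) x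

/-- the `1`-cochain with `ι theta + cB = d gammaK` -/
noncomputable def gammaK (b : A) (x : G → G → ZMod p) : G → G → A :=
  fun g₀ g₁ => (x g₀ g₁).val • K.eK b g₀

lemma theta_mem_Z2 {b : A} (hb : ∀ v ∈ V, ρ v b = b) (hx : x ∈ Z1 L V (trivZ p G)) :
    K.theta b x ∈ Z2 L V τ :=
  cupT_mem_Z2 (K.kum_mem_Z1 hb) hx

lemma theta_add {b b' : A} (hb : ∀ v ∈ V, ρ v b = b) (hb' : ∀ v ∈ V, ρ v b' = b')
    (hx : x ∈ Z1 L V (trivZ p G)) :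
    K.theta (b + b') x - (K.theta b x + K.theta b' x) ∈ B2 L V τ := by
  have h := cupT_mem_B2_left (K.kum_add hb hb') hx
  rwa [cupT_sub_left, cupT_add_left] at h

lemma theta_neg {b : A} (hb : ∀ v ∈ V, ρ v b = b) (hx : x ∈ Z1 L V (trivZ p G)) :
    K.theta (-b) x + K.theta b x ∈ B2 L V τ := by
  have h := cupT_mem_B2_left (K.kum_neg hb) hx
  rwa [cupT_add_left] at h

lemma gammaK_mem_X1 {b : A} (hb : ∀ v ∈ V, ρ v b = b) (hx : x ∈ Z1 L V (trivZ p G)) :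
    K.gammaK b x ∈ X1 L V ρ := by
  obtain ⟨hee, U, hU, hes⟩ := K.eK_mem_X0 (V := V) hb
  obtain ⟨⟨hxe, U', hU', hxs⟩, hxd⟩ := mem_Z1.mp hx
  obtain ⟨W, hW, h1, h2⟩ := L.directed' U hU U' hU'
  refine ⟨fun v hv g₀ g₁ => ?_, W, hW, fun g₀ g₁ u₀ h₀ u₁ h₁ => ?_⟩
  · show (x (v * g₀) (v * g₁)).val • K.eK b (v * g₀) = ρ v ((x g₀ g₁).val • K.eK b g₀)
    have hxv : x (v * g₀) (v * g₁) = x g₀ g₁ := hxe v hv g₀ g₁
    rw [hee v hv, map_nsmul, hxv]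
  · show (x (g₀ * u₀) (g₁ * u₁)).val • K.eK b (g₀ * u₀) = (x g₀ g₁).val • K.eK b g₀
    rw [hes _ _ (h1 h₀), hxs _ _ _ (h2 h₀) _ (h2 h₁)]

lemma ι_theta_add_cB (b : A) (hx : x ∈ Z1 L V (trivZ p G)) (g₀ g₁ g₂ : G) :
    ι (K.theta b x g₀ g₁ g₂) + cB x b g₀ g₁ g₂ = d1 (k := ℤ) (K.gammaK b x) g₀ g₁ g₂ := by
  have h12 := val_x_eq hx g₁ g₂
  have h02 := val_x_eq hx g₀ g₂
  have h01 := val_x_eq hx g₀ g₁
  have hb : b = (p : ℤ) • K.eK b g₀ := by rw [natCast_zsmul, K.p_smul_eK]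
  have hth : ι (K.theta b x g₀ g₁ g₂) = ((x g₁ g₂).val : ℤ) • (K.eK b g₁ - K.eK b g₀) := by
    rw [theta, cupT, K.ι_smul, K.ι_kum, natCast_zsmul]
  have hcB : cB x b g₀ g₁ g₂ =
      (tOf x g₁ g₂ - tOf x g₀ g₂ + tOf x g₀ g₁) • ((p : ℤ) • K.eK b g₀) := by
    rw [← hb]; rfl
  have hd : d1 (k := ℤ) (K.gammaK b x) g₀ g₁ g₂ =
      ((x g₁ g₂).val : ℤ) • K.eK b g₁ - ((x g₀ g₂).val : ℤ) • K.eK b g₀
        + ((x g₀ g₁).val : ℤ) • K.eK b g₀ := by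
    simp only [d1_apply, gammaK, natCast_zsmul]
  rw [hth, hcB, hd]
  have hl : ((x g₀ g₂).val : ℤ) = ((x g₁ g₂).val : ℤ) + ((x g₀ g₁).val : ℤ)
      - p * (tOf x g₁ g₂ - tOf x g₀ g₂ + tOf x g₀ g₁) := by
    rw [h12, h02, h01]; ring
  rw [hl]
  module

/-- `theta b x` is a coboundary for `τ` iff `cB x b` is one for `ρ`. -/
theorem theta_mem_B2_iff {b : A} (hb : ∀ v ∈ V, ρ v b = b) (hx : x ∈ Z1 L V (trivZ p G)) :
    K.theta b x ∈ B2 L V τ ↔ cB x b ∈ B2 L V ρ := by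
  have hγ := K.gammaK_mem_X1 hb hx
  constructor
  · intro h
    obtain ⟨η, hη, hdη⟩ := mem_B2.mp h
    have hιη : (fun g₀ g₁ => ι (η g₀ g₁)) ∈ X1 L V ρ := K.ι_comp_mem_X1_iff.mpr hη
    refine mem_B2.mpr ⟨K.gammaK b x - fun g₀ g₁ => ι (η g₀ g₁), Submodule.sub_mem _ hγ hιη, ?_⟩
    funext g₀ g₁ g₂
    rw [map_sub]
    show d1 (k := ℤ) (K.gammaK b x) g₀ g₁ g₂ - d1 (k := ℤ) (fun g₀ g₁ => ι (η g₀ g₁)) g₀ g₁ g₂ = _
    rw [← K.ι_theta_add_cB b hx, ← K.ι_d1, hdη]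
    abel
  · intro h
    obtain ⟨δ, hδ, hdδ⟩ := mem_B2.mp h
    apply K.H2_inj
    refine mem_B2.mpr ⟨K.gammaK b x - δ, Submodule.sub_mem _ hγ hδ, ?_⟩
    funext g₀ g₁ g₂
    rw [map_sub, hdδ]
    show d1 (k := ℤ) (K.gammaK b x) g₀ g₁ g₂ - cB x b g₀ g₁ g₂ = _
    rw [← K.ι_theta_add_cB b hx]
    abel

/-- (CS4) `theta` dies on `V' = kerOf V x`:  `theta = d1 (-η)`, `η g₀ g₁ = x 1 g₁ • kum b g₀ g₁`. -/
theorem theta_mem_B2_ker {b : A} (hb : ∀ v ∈ V, ρ v b = b) (hx : x ∈ Z1 L V (trivZ p G)) :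
    K.theta b x ∈ B2 L (kerOf V x) τ := by
  refine cupT_mem_B2_right (K.kum_mem_Z1 fun v hv => hb v (kerOf_le V x hv)) ?_
  refine mem_B1.mpr ⟨fun g => x 1 g, ⟨fun v hv g₀ => hv.2 g₀, smooth_x_one hx⟩, ?_⟩
  funext g₀ g₁
  rw [d0_apply]
  exact (x_eq_sub hx g₀ g₁).symm

end KummerSetup

end

end Fermat.Agent.PT
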