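/-
S55 block B: THE CYCLIC STEP (assembly).  For a character `χ` of `V` (cocycle `x`) with kernel
`V' = kerOf V x`:
    `A^{V'} --N--> A^V --theta(·,x)--> H²(V,T) --res--> H²(V',T)`   is exact.
-/
import Fermat.Agent.PT.B.CycTheta
import Fermat.Agent.PT.B.CS1
import Fermat.Agent.PT.B.CS2
import Fermat.Agent.PT.B.CS3

set_option autoImplicit false
set_option linter.unusedSectionVars false

namespace Fermat.Agent.PT

namespace KummerSetup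

variable {G : Type*} [Group G] {L : LevelSystem G} {p : ℕ} [Fact p.Prime]
variable {A : Type*} [AddCommGroup A] {ρ : Representation ℤ G A}
variable {T : Type*} [AddCommGroup T] [Module (ZMod p) T] {τ : Representation (ZMod p) G T}
variable {ι : T →+ A} (K : KummerSetup L p ρ τ ι)
variable {V : Subgroup G} {x : G → G → ZMod p}
include K

/-- (CS1) norms are killed by `theta`. -/
theorem theta_norm_mem_B2 (hx : x ∈ Z1 L V (trivZ p G)) {σ : G} (hσ : σ ∈ V) (hσ1 : x 1 σ = 1)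
    {c : A} (hc : ∀ w ∈ kerOf V x, ρ w c = c) : K.theta (normOf ρ p σ c) x ∈ B2 L V τ :=
  (K.theta_mem_B2_iff (normOf_fixed hx hσ hσ1 hc) hx).2 (cB_norm_mem_B2 hx hσ hσ1 hc)

/-- (CS2) the kernel of `theta` consists of norms. -/
theorem exists_norm_of_theta_mem_B2 (hx : x ∈ Z1 L V (trivZ p G)) {σ : G} (hσ : σ ∈ V)
    (hσ1 : x 1 σ = 1) {b : A} (hb : ∀ v ∈ V, ρ v b = b) (h : K.theta b x ∈ B2 L V τ) :
    ∃ c, (∀ w ∈ kerOf V x, ρ w c = c) ∧ normOf ρ p σ c = b :=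
  exists_norm_of_cB_mem_B2 (K.h90 _) hx hσ hσ1 hb ((K.theta_mem_B2_iff hb hx).1 h)

/-- (CS3) a class of `V` dying on `V'` is a `theta`. -/
theorem exists_theta_of_mem_B2_ker (hx : x ∈ Z1 L V (trivZ p G)) (hne : kerOf V x ≠ V)
    {y : G → G → G → T} (hy : y ∈ Z2 L V τ) (h : y ∈ B2 L (kerOf V x) τ) :
    ∃ b, (∀ v ∈ V, ρ v b = b) ∧ y - K.theta b x ∈ B2 L V τ := by
  obtain ⟨σ, hσ, hσ1⟩ := exists_sigma hx hne
  have hY : (fun g₀ g₁ g₂ => ι (y g₀ g₁ g₂)) ∈ Z2 L V ρ := by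
    refine ⟨K.ι_comp_mem_X2_iff.2 hy.1, ?_⟩
    show d2 (k := ℤ) (fun g₀ g₁ g₂ => ι (y g₀ g₁ g₂)) = 0
    funext g₀ g₁ g₂ g₃
    rw [← K.ι_d2, (mem_Z2.1 hy).2]
    simp
  have hYB : (fun g₀ g₁ g₂ => ι (y g₀ g₁ g₂)) ∈ B2 L (kerOf V x) ρ := by
    obtain ⟨e₀, he₀, rfl⟩ := h
    refine ⟨fun g₀ g₁ => ι (e₀ g₀ g₁), K.ι_comp_mem_X1_iff.2 he₀, ?_⟩
    funext g₀ g₁ g₂
    rw [K.ι_d1]
  obtain ⟨b, hb, hbB⟩ := exists_cB_of_mem_B2_ker (K.h90 _) hx hσ hσ1 hY hYB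
  have h1 : y + K.theta b x ∈ B2 L V τ := by
    apply K.H2_inj
    have h2 : (fun g₀ g₁ g₂ => ι ((y + K.theta b x) g₀ g₁ g₂)) =
        ((fun g₀ g₁ g₂ => ι (y g₀ g₁ g₂)) - cB x b) + d1 (k := ℤ) (K.gammaK b x) := by
      funext g₀ g₁ g₂
      simp only [Pi.add_apply, Pi.sub_apply, map_add]
      rw [← K.ι_theta_add_cB b hx]
      abel
    rw [h2]
    exact add_mem hbB ⟨_, K.gammaK_mem_X1 hb hx, rfl⟩
  refine ⟨-b, fun v hv => by rw [map_neg, hb v hv], ?_⟩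
  have h3 : y - K.theta (-b) x = (y + K.theta b x) - (K.theta (-b) x + K.theta b x) := by abel
  rw [h3]
  exact sub_mem h1 (K.theta_neg hb hx)

end KummerSetup

end Fermat.Agent.PT
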