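/-
S55 block B (instance part), task I1: Hilbert 90 by Poincare series, abstract field form.
`G` acts on a field `Ω` smoothly w.r.t. the level system `L`, and every level `U` is "Galois closed"
(an element fixing `Ω^U` pointwise lies in `U`).  `V ≤ G` is an ARBITRARY subgroup.
-/
import Fermat.Agent.PT.Coh.Defs

set_option autoImplicit false

namespace Fermat.Agent.PT

/-- PROOF.  Let `U` be a level of `c`.  For `x ∈ Ω^U` the function `w ↦ c w * w • x` on `V` is right
invariant under `V ∩ U`, so `b x := ∑_{w ∈ V/(V ∩ U)} c w * w • x` makes sense (finite sum: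
`U.FiniteIndex`), and `v • b x = ∑ (v • c w) * (v w) • x = (c v)⁻¹ * ∑ c (v w) * (v w) • x
= (c v)⁻¹ * b x` (reindex by left multiplication by `v`).
The monoid homs `Ω^U → Ω`, `x ↦ w • x` (`w` running through representatives of `V/(V ∩ U)`) are
pairwise distinct by `hgal`, hence linearly independent (`linearIndependent_monoidHom`); as
`c w ≠ 0` there is `x ∈ Ω^U` with `b x ≠ 0`.  Take `β = (b x)⁻¹`. -/
theorem hilbert90_poincare {Ω G : Type*} [Field Ω] [Group G] [MulSemiringAction G Ω]
    (L : LevelSystem G)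
    (hgal : ∀ U ∈ L, ∀ g : G, (∀ x : Ω, (∀ u ∈ U, u • x = x) → g • x = x) → g ∈ U)
    (V : Subgroup G) (c : G → Ω) (hc0 : ∀ v ∈ V, c v ≠ 0)
    (hcs : ∃ U ∈ L, ∀ v ∈ V, ∀ u ∈ U, u ∈ V → c (v * u) = c v)
    (hcV : ∀ v ∈ V, ∀ w ∈ V, c (v * w) = c v * v • c w) :
    ∃ β : Ω, β ≠ 0 ∧ ∀ v ∈ V, v • β = β * c v := by
  classical
  obtain ⟨U, hU, hcU⟩ := hcs
  have hfi : U.FiniteIndex := L.finiteIndex' U hU
  have hrel : U.relIndex V ≠ 0 := fun h0 =>
    hfi.index_ne_zero (Subgroup.index_eq_zero_of_relIndex_eq_zero h0)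
  have hfin : Finite (V ⧸ U.subgroupOf V) := Nat.finite_of_card_ne_zero hrel
  have := Fintype.ofFinite (V ⧸ U.subgroupOf V)
  -- the monoid of `U`-fixed points
  let M : Submonoid Ω :=
    { carrier := {x | ∀ u ∈ U, u • x = x}
      one_mem' := fun u _ => smul_one u
      mul_mem' := fun {a b} ha hb u hu => by rw [smul_mul', ha u hu, hb u hu] }
  let φ : (V ⧸ U.subgroupOf V) → (M →* Ω) := fun q =>
    { toFun := fun x => ((Quotient.out q : V) : G) • (x : Ω)
      map_one' := smul_one _
      map_mul' := fun a b => smul_mul' _ _ _ }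
  have hφ : Function.Injective φ := by
    intro q q' h
    have h1 : ((Quotient.out q : V) : G)⁻¹ * ((Quotient.out q' : V) : G) ∈ U := by
      apply hgal U hU
      intro x hx
      have h2 : ((Quotient.out q : V) : G) • x = ((Quotient.out q' : V) : G) • x :=
        DFunLike.congr_fun h (⟨x, hx⟩ : M)
      rw [mul_smul, ← h2, inv_smul_smul]
    have h3 : (QuotientGroup.mk (Quotient.out q : V) : V ⧸ U.subgroupOf V)
        = QuotientGroup.mk (Quotient.out q' : V) := by
      rw [QuotientGroup.eq, Subgroup.mem_subgroupOf]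
      exact h1
    rwa [QuotientGroup.out_eq', QuotientGroup.out_eq'] at h3
  have hli : LinearIndependent Ω (fun q : V ⧸ U.subgroupOf V => (φ q : M → Ω)) :=
    (linearIndependent_monoidHom M Ω).comp φ hφ
  rw [Fintype.linearIndependent_iff] at hli
  -- there is `x` with nonzero Poincare series
  have hex : ∃ x : M, ∑ q : V ⧸ U.subgroupOf V,
      c ((Quotient.out q : V) : G) * ((Quotient.out q : V) : G) • (x : Ω) ≠ 0 := by
    by_contra hcon
    push Not at hcon
    have h1 := hli (fun q => c ((Quotient.out q : V) : G)) (by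
      funext x
      rw [Finset.sum_apply]
      exact hcon x) (QuotientGroup.mk 1)
    exact hc0 _ (Quotient.out (QuotientGroup.mk 1 : V ⧸ U.subgroupOf V) : V).2 h1
  obtain ⟨x, hx⟩ := hex
  set b : Ω := ∑ q : V ⧸ U.subgroupOf V,
      c ((Quotient.out q : V) : G) * ((Quotient.out q : V) : G) • (x : Ω) with hb
  -- invariance of the summand
  have hF : ∀ a : V, c ((Quotient.out (QuotientGroup.mk a : V ⧸ U.subgroupOf V) : V) : G) *
      ((Quotient.out (QuotientGroup.mk a : V ⧸ U.subgroupOf V) : V) : G) • (x : Ω)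
      = c (a : G) * (a : G) • (x : Ω) := by
    intro a
    obtain ⟨k, hk⟩ := QuotientGroup.mk_out_eq_mul (U.subgroupOf V) a
    have hkU : ((k : V) : G) ∈ U := Subgroup.mem_subgroupOf.1 k.2
    rw [hk, Subgroup.coe_mul, hcU _ a.2 _ hkU (k : V).2, mul_smul, x.2 _ hkU]
  have hvb : ∀ v ∈ V, c v * v • b = b := by
    intro v hv
    rw [hb, Finset.smul_sum, Finset.mul_sum]
    rw [← Equiv.sum_comp (MulAction.toPerm (⟨v, hv⟩ : V) : Equiv.Perm (V ⧸ U.subgroupOf V))
      (fun q => c ((Quotient.out q : V) : G) * ((Quotient.out q : V) : G) • (x : Ω))]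
    apply Finset.sum_congr rfl
    intro q _
    obtain ⟨a, rfl⟩ := QuotientGroup.mk_surjective q
    rw [MulAction.toPerm_apply, MulAction.Quotient.smul_mk, hF, hF, smul_mul', ← mul_assoc,
      ← hcV v hv _ a.2, ← mul_smul]
    rfl
  refine ⟨b⁻¹, inv_ne_zero hx, fun v hv => ?_⟩
  have h1 := hvb v hv
  have hc := hc0 v hv
  rw [smul_inv'']
  have h3 : b⁻¹ = (c v * v • b)⁻¹ := by rw [h1]
  rw [h3, mul_inv, mul_comm (c v)⁻¹, mul_assoc, inv_mul_cancel₀ hc, mul_one]

end Fermat.Agent.PT
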