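/-
S55 block B (instance part), tasks I2, I3: THE INSTANCE of the abstract Kummer setup:
  `G = GQ`, `L = Lall`, `A = Additive Qbarˣ` with `multRep`, `T = ZMod p` with `cycRep p`,
  `ι = iotaP p : a ↦ ζ_p ^ a`.
-/
import Fermat.Agent.PT.B.Setup
import Fermat.Agent.PT.B.H90Field
import Fermat.Agent.PT.Gal.Setup
import Fermat.Agent.PT.Bridge.Levels

set_option autoImplicit false

open ExtCitation

noncomputable section

namespace Fermat.Agent.PT

/-! ### levels of `GQ` (task I2) -/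

/-- Every element of `Qbar` is fixed by a level. -/
theorem exists_level_fixing (x : Qbar) : ∃ U ∈ Lall, ∀ u ∈ U, u x = x := by
  have hx : IsIntegral ℚ x := (Algebra.IsAlgebraic.isAlgebraic x).isIntegral
  obtain ⟨F', hle, hfd, hn⟩ := exists_normal_level_all (IntermediateField.adjoin ℚ {x})
    (IntermediateField.adjoin.finiteDimensional hx)
  refine ⟨F'.fixingSubgroup, ⟨hn, F', hfd, rfl⟩, fun u hu => ?_⟩
  exact (IntermediateField.mem_fixingSubgroup_iff F' u).mp hu x
    (hle (IntermediateField.mem_adjoin_simple_self ℚ x))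

/-- Levels are Galois closed. -/
theorem mem_level_of_fixes {U : Subgroup GQ} (hU : U ∈ Lall) {g : GQ}
    (hg : ∀ x : Qbar, (∀ u ∈ U, u x = x) → g x = x) : g ∈ U := by
  obtain ⟨-, F, -, rfl⟩ := hU
  rw [IntermediateField.mem_fixingSubgroup_iff]
  intro x hx
  exact hg x fun u hu => (IntermediateField.mem_fixingSubgroup_iff F u).mp hu x hx

theorem isSmoothRep_multRep : IsSmoothRep Lall multRep := by
  intro a
  obtain ⟨U, hU, h⟩ := exists_level_fixing ((Additive.toMul a : Qbarˣ) : Qbar)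
  refine ⟨U, hU, fun u hu => ?_⟩
  apply Additive.toMul.injective
  apply Units.ext
  exact h u hu

/-- Hilbert 90 for an arbitrary subgroup `V ≤ GQ`.
(`f ∈ Z1`: `c g := (f 1 g).toMul`; `f g₀ g₁ = c g₁ / c g₀`, `c (v g) = c v * v (c g)`;
`hilbert90_poincare` gives `β`; `e g := β * c g ∈ X0 Lall V multRep`, `d0 e = f`.) -/
theorem multRep_hilbert90 (V : Subgroup GQ) : Z1 Lall V multRep ≤ B1 Lall V multRep := by
  intro f hf
  obtain ⟨⟨heq, U, hU, hsm⟩, hd⟩ := mem_Z1.mp hf
  have hcoc : ∀ g₀ g₁ g₂ : GQ, f g₀ g₂ = f g₀ g₁ + f g₁ g₂ := by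
    intro g₀ g₁ g₂
    have h := congrFun (congrFun (congrFun hd g₀) g₁) g₂
    simp only [d1_apply, Pi.zero_apply] at h
    have h' : f g₀ g₂ = f g₁ g₂ + f g₀ g₁ := by
      rw [sub_add_eq_add_sub, sub_eq_zero] at h
      exact h.symm
    rw [h', add_comm]
  have hmul : ∀ v ∈ V, ∀ g : GQ, f 1 (v * g) = f 1 v + multRep v (f 1 g) := by
    intro v hv g
    rw [hcoc 1 v (v * g)]
    have := heq v hv 1 g
    rw [mul_one] at this
    rw [this]
  obtain ⟨β, hβ0, hβ⟩ := hilbert90_poincare (Ω := Qbar) (G := GQ) Lall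
    (fun U hU g hg => mem_level_of_fixes hU hg) V
    (fun g => ((Additive.toMul (f 1 g) : Qbarˣ) : Qbar))
    (fun v _ => Units.ne_zero _)
    ⟨U, hU, fun v _ u hu _ => by
      have := hsm 1 v 1 U.one_mem u hu
      rw [mul_one] at this
      rw [this]⟩
    (fun v hv w _ => by
      rw [hmul v hv w]
      rfl)
  have hB : ∀ v ∈ V, multRep v (Additive.ofMul (Units.mk0 β hβ0))
      = Additive.ofMul (Units.mk0 β hβ0) + f 1 v := by
    intro v hv
    apply Additive.toMul.injective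
    apply Units.ext
    exact hβ v hv
  refine mem_B1.mpr ⟨fun g => Additive.ofMul (Units.mk0 β hβ0) + f 1 g, ⟨?_, U, hU, ?_⟩, ?_⟩
  · intro v hv g
    simp only [hmul v hv g, map_add, hB v hv]
    abel
  · intro g u hu
    have := hsm 1 g 1 U.one_mem u hu
    rw [mul_one] at this
    simp only [this]
  · funext g₀ g₁
    simp only [d0_apply]
    rw [hcoc 1 g₀ g₁]
    abel

theorem multRep_divisible (n : ℕ) (hn : n ≠ 0) (a : Additive Qbarˣ) :
    ∃ b : Additive Qbarˣ, n • b = a := by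
  obtain ⟨z, hz⟩ := IsAlgClosed.exists_pow_nat_eq ((Additive.toMul a : Qbarˣ) : Qbar)
    (Nat.pos_of_ne_zero hn)
  have hz0 : z ≠ 0 := by
    rintro rfl
    rw [zero_pow hn] at hz
    exact (Units.ne_zero _) hz.symm
  refine ⟨Additive.ofMul (Units.mk0 z hz0), ?_⟩
  apply Additive.toMul.injective
  apply Units.ext
  rw [toMul_nsmul, toMul_ofMul, Units.val_pow_eq_pow_val, Units.val_mk0, hz]

/-! ### `μ_p` (task I3) -/

variable (p : ℕ) [Fact p.Prime]

theorem exists_zetaP : ∃ ζ : Qbarˣ, IsPrimitiveRoot ζ p := by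
  have : NeZero p := ⟨(Fact.out : p.Prime).ne_zero⟩
  obtain ⟨ζ, hζ⟩ := HasEnoughRootsOfUnity.exists_primitiveRoot Qbar p
  exact ⟨(hζ.isUnit (Fact.out : p.Prime).ne_zero).unit, IsPrimitiveRoot.coe_units_iff.mp hζ⟩

/-- a chosen primitive `p`-th root of unity -/
def zetaP : Qbarˣ := (exists_zetaP p).choose

theorem zetaP_spec : IsPrimitiveRoot (zetaP p) p := (exists_zetaP p).choose_spec

/-- `ι : F_p(1) → Qbar^×`, `a ↦ ζ_p ^ a`. -/
def iotaP : ZMod p →+ Additive Qbarˣ :=
  ZMod.lift p ⟨zmultiplesHom (Additive Qbarˣ) (Additive.ofMul (zetaP p)), by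
    rw [zmultiplesHom_apply, natCast_zsmul, ← ofMul_pow, (zetaP_spec p).pow_eq_one, ofMul_one]⟩

theorem iotaP_apply (a : ZMod p) : iotaP p a = Additive.ofMul (zetaP p ^ a.val) := by
  have : NeZero p := ⟨(Fact.out : p.Prime).ne_zero⟩
  have h : a = ((a.val : ℤ) : ZMod p) := by simp
  conv_lhs => rw [h]
  unfold iotaP
  rw [ZMod.lift_coe]
  change zmultiplesHom (Additive Qbarˣ) (Additive.ofMul (zetaP p)) ((a.val : ℕ) : ℤ) = _
  rw [zmultiplesHom_apply, natCast_zsmul, ofMul_pow]

theorem iotaP_injective : Function.Injective (iotaP p) := by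
  have : NeZero p := ⟨(Fact.out : p.Prime).ne_zero⟩
  intro a b hab
  rw [iotaP_apply, iotaP_apply] at hab
  have h := (zetaP_spec p).pow_inj (ZMod.val_lt a) (ZMod.val_lt b) (Additive.ofMul.injective hab)
  exact ZMod.val_injective p h

/-- `g ζ = ζ ^ cycloChar p g` for all `p`-th roots of unity. -/
theorem galois_zetaP_aux (g : GQ) (t : Qbarˣ) (ht : t ^ p = 1) :
    Units.map (g : Qbar →* Qbar) t = t ^ ((cycloChar p g : ZMod p)).val := by
  have : NeZero p := ⟨(Fact.out : p.Prime).ne_zero⟩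
  have ht' : t ∈ rootsOfUnity p Qbar := by rwa [mem_rootsOfUnity]
  have h1 := modularCyclotomicCharacter.spec (L := Qbar) (card_rootsOfUnity_eq_self p)
    (g : Qbar ≃+* Qbar) ht'
  apply Units.ext
  rw [Units.val_pow_eq_pow_val]
  exact h1

/-- `g ζ = ζ ^ cycloChar p g`. -/
theorem iotaP_equivariant (g : GQ) (a : ZMod p) :
    iotaP p (cycRep p g a) = multRep g (iotaP p a) := by
  have : NeZero p := ⟨(Fact.out : p.Prime).ne_zero⟩
  rw [cycRep_apply, iotaP_apply, iotaP_apply, multRep_apply]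
  congr 1
  rw [map_pow, galois_zetaP_aux p g _ (zetaP_spec p).pow_eq_one, ← pow_mul]
  rw [ZMod.val_mul]
  have h := pow_mod_orderOf (zetaP p) ((cycloChar p g : ZMod p).val * a.val)
  rwa [← (zetaP_spec p).eq_orderOf] at h

theorem iotaP_range (a : Additive Qbarˣ) (ha : p • a = 0) : ∃ t, iotaP p t = a := by
  have hp : p.Prime := Fact.out
  have : NeZero p := ⟨hp.ne_zero⟩
  have h1 : (Additive.toMul a) ^ p = 1 := ha
  have h2 : ((Additive.toMul a : Qbarˣ) : Qbar) ^ p = 1 := by
    rw [← Units.val_pow_eq_pow_val, h1, Units.val_one]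
  obtain ⟨i, hi, h⟩ := (IsPrimitiveRoot.coe_units_iff.mpr (zetaP_spec p)).eq_pow_of_pow_eq_one h2
  refine ⟨(i : ZMod p), ?_⟩
  rw [iotaP_apply, ZMod.val_natCast, Nat.mod_eq_of_lt hi]
  have h3 : zetaP p ^ i = Additive.toMul a := by
    apply Units.ext
    rw [Units.val_pow_eq_pow_val, h]
  rw [h3]
  rfl

/-- THE INSTANCE. -/
theorem kummerQbar : KummerSetup Lall p multRep (cycRep p) (iotaP p) where
  smooth := isSmoothRep_multRep
  inj := iotaP_injective p
  equiv := iotaP_equivariant p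
  range := iotaP_range p
  div := multRep_divisible p (Fact.out : p.Prime).ne_zero
  h90 := multRep_hilbert90

/-! ### dictionary `A^V = (Qbar^V)^×` (task I3) -/

theorem multRep_fixed_iff' {V : Subgroup GQ} {x : Qbarˣ} :
    (∀ v ∈ V, multRep v (Additive.ofMul x) = Additive.ofMul x) ↔ ∀ v ∈ V, v (x : Qbar) = x := by
  refine forall₂_congr fun v _ => ?_
  rw [multRep_apply]
  constructor
  · intro h
    exact congrArg Units.val (Additive.ofMul.injective h)
  · intro h
    congr 1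
    exact Units.ext h

theorem multRep_fixed_iff {V : Subgroup GQ} {x : Qbarˣ} :
    (∀ v ∈ V, multRep v (Additive.ofMul x) = Additive.ofMul x) ↔
      (x : Qbar) ∈ IntermediateField.fixedField V := by
  rw [multRep_fixed_iff', IntermediateField.mem_fixedField_iff]

theorem toMul_multRep (g : GQ) (a : Additive Qbarˣ) :
    ((Additive.toMul (multRep g a) : Qbarˣ) : Qbar) = g ((Additive.toMul a : Qbarˣ) : Qbar) := rfl

/-- the abstract norm is the product of the conjugates -/
theorem toMul_sum_multRep (n : ℕ) (σ : GQ) (a : Additive Qbarˣ) :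
    ((Additive.toMul (∑ i ∈ Finset.range n, multRep (σ ^ i) a) : Qbarˣ) : Qbar) =
      ∏ i ∈ Finset.range n, (σ ^ i) ((Additive.toMul a : Qbarˣ) : Qbar) := by
  rw [toMul_sum, Units.coe_prod]
  rfl

/-- `cycRep p` is trivial on `V` iff `ζ_p ∈ Qbar^V`. -/
theorem le_G1_iff {V : Subgroup GQ} : V ≤ G1 p ↔ ∀ v ∈ V, v (zetaP p : Qbar) = zetaP p := by
  have hp : p.Prime := Fact.out
  have : NeZero p := ⟨hp.ne_zero⟩
  have : Fact (1 < p) := ⟨hp.one_lt⟩
  refine forall₂_congr fun v _ => ?_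
  have h1 := galois_zetaP_aux p v _ (zetaP_spec p).pow_eq_one
  have h2 : v (zetaP p : Qbar) = ((Units.map (v : Qbar →* Qbar) (zetaP p) : Qbarˣ) : Qbar) := rfl
  constructor
  · intro hv
    have hv1 : cycloChar p v = 1 := hv
    rw [h2, h1, hv1, Units.val_one, ZMod.val_one, pow_one]
  · intro hv
    change cycloChar p v = 1
    have h3 : zetaP p ^ ((cycloChar p v : ZMod p)).val = zetaP p ^ 1 := by
      rw [← h1, pow_one]
      exact Units.ext (h2.symm.trans hv)
    have h4 := (zetaP_spec p).pow_inj (ZMod.val_lt _) hp.one_lt h3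
    apply Units.ext
    apply ZMod.val_injective p
    rw [h4, Units.val_one, ZMod.val_one]

theorem G1_isOpen : Lall.IsOpen (G1 p) := by
  obtain ⟨U, hU, h⟩ := exists_level_fixing (zetaP p : Qbar)
  exact ⟨U, hU, (le_G1_iff p).2 h⟩

instance G1_normal : (G1 p).Normal := by unfold G1; infer_instance

theorem G1_index : ¬ p ∣ (G1 p).index := by
  have hp : p.Prime := Fact.out
  have : NeZero p := ⟨hp.ne_zero⟩
  unfold G1
  rw [Subgroup.index_ker]
  intro h
  have h1 : Nat.card (cycloChar p).range ∣ Nat.card (ZMod p)ˣ := Subgroup.card_subgroup_dvd_card _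
  rw [Nat.card_eq_fintype_card (α := (ZMod p)ˣ), ZMod.card_units_eq_totient,
    Nat.totient_prime hp] at h1
  have h2 := Nat.le_of_dvd (Nat.sub_pos_of_lt hp.one_lt) (h.trans h1)
  have := hp.one_lt
  omega

end Fermat.Agent.PT

end
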