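/-
S55 block B (tower part), tasks T2, T3: pure group theory.  Sylow subgroup + chain of index-`p` steps.
-/
import Mathlib

set_option autoImplicit false

namespace Fermat.Agent.PT

/-- Downward chain from a subgroup of order `p ^ m`. -/
theorem pchain_aux (p : ℕ) [Fact p.Prime] (Q : Type*) [Group Q] [Finite Q] :
    ∀ (m : ℕ) (P : Subgroup Q), Nat.card P = p ^ m →
      ∃ H : ℕ → Subgroup Q, H 0 = P ∧ H m = ⊥ ∧
        ∀ i < m, H (i + 1) ≤ H i ∧ ((H (i + 1)).subgroupOf (H i)).Normal ∧
          (H (i + 1)).relIndex (H i) = p := by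
  have hp : p.Prime := Fact.out
  intro m
  induction m with
  | zero =>
    intro P hP
    refine ⟨fun _ => P, rfl, ?_, fun i hi => absurd hi (Nat.not_lt_zero i)⟩
    rw [pow_zero] at hP
    exact Subgroup.card_eq_one.mp hP
  | succ m ih =>
    intro P hP
    obtain ⟨K, hK⟩ := Sylow.exists_subgroup_card_pow_prime (G := P) p (n := m)
      (by rw [hP]; exact pow_dvd_pow p (Nat.le_succ m))
    set P' : Subgroup Q := K.map P.subtype with hP'
    have hP'le : P' ≤ P := Subgroup.map_subtype_le K
    have hcard : Nat.card P' = p ^ m := by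
      rw [hP', Subgroup.card_map_of_injective P.subtype_injective, hK]
    have hsub : P'.subgroupOf P = K := by
      rw [hP', Subgroup.subgroupOf, Subgroup.comap_map_eq_self_of_injective P.subtype_injective]
    have hidx : P'.relIndex P = p := by
      have h1 := K.card_mul_index
      rw [hK, hP, pow_succ] at h1
      rw [Subgroup.relIndex, hsub]
      exact Nat.eq_of_mul_eq_mul_left (pow_pos hp.pos m) h1
    have hnorm : (P'.subgroupOf P).Normal := by
      apply Subgroup.normal_of_index_eq_minFac_card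
      rw [hP, Nat.pow_minFac (Nat.succ_ne_zero m), hp.minFac_eq]
      exact hidx
    obtain ⟨H, h0, hm, hstep⟩ := ih P' hcard
    refine ⟨fun i => Nat.casesOn i P H, rfl, hm, ?_⟩
    intro i hi
    cases i with
    | zero =>
      show H 0 ≤ P ∧ ((H 0).subgroupOf P).Normal ∧ (H 0).relIndex P = p
      rw [h0]
      exact ⟨hP'le, hnorm, hidx⟩
    | succ i => exact hstep i (Nat.lt_of_succ_lt_succ hi)

/-- T2.  In a finite group: a Sylow `p`-subgroup `H 0` and a chain `H 0 > H 1 > .. > H n = ⊥`, every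
step relatively normal of index `p`.
PROOF.  Build the chain from below: `K 0 = ⊥`, and as long as `p ^ (j+1) ∣ card Q` use
`Sylow.exists_subgroup_card_pow_succ` to get `K (j+1) ≥ K j` of order `p^(j+1)`; an index-`p`
subgroup of a group of order `p^(j+1)` is normal (`Subgroup.normal_of_index_eq_minFac_card`).
Stop at `n = (Nat.card Q).factorization p`; put `H i = K (n - i)`. -/
theorem exists_pchain (p : ℕ) [Fact p.Prime] (Q : Type*) [Group Q] [Finite Q] :
    ∃ (n : ℕ) (H : ℕ → Subgroup Q), ¬ p ∣ (H 0).index ∧ Nat.card (H 0) = p ^ n ∧ H n = ⊥ ∧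
      ∀ i < n, H (i + 1) ≤ H i ∧ ((H (i + 1)).subgroupOf (H i)).Normal ∧
        (H (i + 1)).relIndex (H i) = p := by
  obtain ⟨P⟩ : Nonempty (Sylow p Q) := inferInstance
  have hcard := P.card_eq_multiplicity
  obtain ⟨H, h0, hn, hstep⟩ := pchain_aux p Q _ (P : Subgroup Q) hcard
  refine ⟨_, H, ?_, ?_, hn, hstep⟩
  · rw [h0]
    exact P.not_dvd_index
  · rw [h0]
    exact hcard

/-- T3.  Relative version inside an ambient group: `N ≤ V`, `N` relatively normal of finite index
in `V`.  (Apply `exists_pchain` to `Q = V ⧸ N.subgroupOf V`, `W i = ((H i).comap mk').map V.subtype`.) -/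
theorem exists_pchain_rel (p : ℕ) [Fact p.Prime] {G : Type*} [Group G] {V N : Subgroup G}
    (hle : N ≤ V) (hn : (N.subgroupOf V).Normal) (hfin : N.relIndex V ≠ 0) :
    ∃ (n : ℕ) (W : ℕ → Subgroup G), W 0 ≤ V ∧ (W 0).relIndex V ≠ 0 ∧ ¬ p ∣ (W 0).relIndex V ∧
      W n = N ∧ (∀ w ∈ W 0, w ^ (p ^ n) ∈ N) ∧
      ∀ i < n, W (i + 1) ≤ W i ∧ ((W (i + 1)).subgroupOf (W i)).Normal ∧
        (W (i + 1)).relIndex (W i) = p := by
  have : (N.subgroupOf V).FiniteIndex := ⟨hfin⟩
  have : Finite (V ⧸ N.subgroupOf V) := Subgroup.finite_quotient_of_finiteIndex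
  obtain ⟨n, H, hnd, hcard, hbot, hstep⟩ := exists_pchain p (V ⧸ N.subgroupOf V)
  set π : V →* V ⧸ N.subgroupOf V := QuotientGroup.mk' (N.subgroupOf V) with hπ
  have hπs : Function.Surjective π := QuotientGroup.mk'_surjective _
  have hinj : Function.Injective V.subtype := V.subtype_injective
  have hrel : ∀ A B : Subgroup (V ⧸ N.subgroupOf V),
      (((A.comap π).map V.subtype).relIndex ((B.comap π).map V.subtype)) = A.relIndex B := by
    intro A B
    rw [Subgroup.relIndex_map_map_of_injective _ _ hinj, Subgroup.relIndex_comap,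
      Subgroup.map_comap_eq_self_of_surjective hπs]
  have hidx0 : (((H 0).comap π).map V.subtype).relIndex V = (H 0).index := by
    rw [Subgroup.relIndex, Subgroup.subgroupOf, Subgroup.comap_map_eq_self_of_injective hinj,
      Subgroup.index_comap_of_surjective _ hπs]
  refine ⟨n, fun i => ((H i).comap π).map V.subtype, Subgroup.map_subtype_le _, ?_, ?_, ?_, ?_, ?_⟩
  · show (((H 0).comap π).map V.subtype).relIndex V ≠ 0
    rw [hidx0]
    exact Subgroup.FiniteIndex.index_ne_zero
  · show ¬ p ∣ (((H 0).comap π).map V.subtype).relIndex V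
    rw [hidx0]
    exact hnd
  · show ((H n).comap π).map V.subtype = N
    have hker : (⊥ : Subgroup (V ⧸ N.subgroupOf V)).comap π = N.subgroupOf V :=
      QuotientGroup.ker_mk' (N.subgroupOf V)
    rw [hbot, hker, Subgroup.map_subgroupOf_eq_of_le hle]
  · intro w hw
    obtain ⟨v, hv, rfl⟩ := hw
    have hv' : π v ∈ H 0 := hv
    have h1 : (⟨π v, hv'⟩ : H 0) ^ (p ^ n) = 1 := by
      rw [← hcard]
      exact pow_card_eq_one'
    have h2 : π (v ^ (p ^ n)) = 1 := by
      rw [map_pow]
      exact congrArg Subtype.val h1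
    have h3 : v ^ (p ^ n) ∈ N.subgroupOf V := by
      rw [← QuotientGroup.ker_mk' (N.subgroupOf V)]
      exact h2
    exact h3
  · intro i hi
    obtain ⟨h1, h2, h3⟩ := hstep i hi
    have hle' : ((H (i + 1)).comap π).map V.subtype ≤ ((H i).comap π).map V.subtype :=
      Subgroup.map_mono (Subgroup.comap_mono h1)
    refine ⟨hle', ?_, ?_⟩
    · rw [Subgroup.normal_subgroupOf_iff hle']
      rw [Subgroup.normal_subgroupOf_iff h1] at h2
      rintro _ _ ⟨x, hx, rfl⟩ ⟨y, hy, rfl⟩
      refine ⟨y * x * y⁻¹, ?_, by simp⟩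
      show π (y * x * y⁻¹) ∈ H (i + 1)
      rw [map_mul, map_mul, map_inv]
      exact h2 _ _ hx hy
    · show (((H (i + 1)).comap π).map V.subtype).relIndex (((H i).comap π).map V.subtype) = p
      rw [hrel]
      exact h3

end Fermat.Agent.PT
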