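/-
S55 block B (tower part), task T5: SYLOW + TOWER and the induction principle.
-/
import Fermat.Agent.PT.B.CharExists
import Fermat.Agent.PT.B.PChain
import Fermat.Agent.PT.B.Coprime
import Fermat.Agent.PT.Coh.IsoCrit

set_option autoImplicit false
set_option linter.unusedSectionVars false

namespace Fermat.Agent.PT

variable {G : Type*} [Group G] {L : LevelSystem G} {p : ℕ} [Fact p.Prime]

/-- The tower below `V` down to `V ⊓ U`: `W 0 ≤ V` of index prime to `p`, `W (i+1)` the kernel of a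
nontrivial character `x i` of `W i`, `W n = V ⊓ U`.
(`exists_pchain_rel` with `N = V ⊓ U` + `exists_Z1_of_relIndex`; note `W i ⊓ U ≤ V ⊓ U = W n ≤ W (i+1)`.) -/
theorem exists_tower (V : Subgroup G) {U : Subgroup G} (hU : U ∈ L) :
    ∃ (n : ℕ) (W : ℕ → Subgroup G) (x : ℕ → G → G → ZMod p),
      W 0 ≤ V ∧ (W 0).relIndex V ≠ 0 ∧ ¬ p ∣ (W 0).relIndex V ∧ W n = V ⊓ U ∧
      (∀ w ∈ W 0, w ^ (p ^ n) ∈ V ⊓ U) ∧ (∀ i ≤ n, V ⊓ U ≤ W i ∧ W i ≤ W 0) ∧
      ∀ i < n, x i ∈ Z1 L (W i) (trivZ p G) ∧ kerOf (W i) (x i) = W (i + 1) ∧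
        kerOf (W i) (x i) ≠ W i := by
  have hUn : U.Normal := L.normal' U hU
  have hUf : U.FiniteIndex := L.finiteIndex' U hU
  have hn : ((V ⊓ U).subgroupOf V).Normal := by
    rw [Subgroup.inf_subgroupOf_left]
    infer_instance
  have hfin : (V ⊓ U).relIndex V ≠ 0 := by
    rw [Subgroup.inf_relIndex_left]
    exact fun h0 => hUf.index_ne_zero (Subgroup.index_eq_zero_of_relIndex_eq_zero h0)
  obtain ⟨n, W, h0, h1, h2, h3, h4, h5⟩ := exists_pchain_rel p (inf_le_left : V ⊓ U ≤ V) hn hfin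
  have hanti : ∀ i j, i ≤ j → j ≤ n → W j ≤ W i := by
    intro i j hij
    induction j, hij using Nat.le_induction with
    | base => intro _; exact le_rfl
    | succ j hj ih =>
      intro hjn
      exact (h5 j (by omega)).1.trans (ih (by omega))
  have hx : ∀ i, ∃ x : G → G → ZMod p, i < n → x ∈ Z1 L (W i) (trivZ p G) ∧
      kerOf (W i) x = W (i + 1) := by
    intro i
    by_cases hi : i < n
    · obtain ⟨hle, hnor, hidx⟩ := h5 i hi
      have hUV : W i ⊓ U ≤ W (i + 1) := by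
        calc W i ⊓ U ≤ V ⊓ U := inf_le_inf_right U ((hanti 0 i (Nat.zero_le i) hi.le).trans h0)
          _ = W n := h3.symm
          _ ≤ W (i + 1) := hanti (i + 1) n hi le_rfl
      obtain ⟨x, hx1, hx2⟩ := exists_Z1_of_relIndex (L := L) hU hle hUV hnor hidx
      exact ⟨x, fun _ => ⟨hx1, hx2⟩⟩
    · exact ⟨0, fun h => absurd h hi⟩
  choose x hx using hx
  refine ⟨n, W, x, h0, h1, h2, h3, h4, fun i hi => ⟨?_, hanti 0 i (Nat.zero_le i) hi⟩,
    fun i hi => ⟨(hx i hi).1, (hx i hi).2, ?_⟩⟩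
  · rw [← h3]
    exact hanti i n hi le_rfl
  · rw [(hx i hi).2]
    intro heq
    have hidx := (h5 i hi).2.2
    rw [heq, Subgroup.relIndex_self] at hidx
    exact (Fact.out : p.Prime).one_lt.ne hidx

/-- If `G₁` is normal, contains the level `U` and has index prime to `p`, then the top `W 0` of the
tower lies in `G₁`: for `w ∈ W 0`, `w ^ (p^n) ∈ U ≤ G₁` and `w ^ G₁.index ∈ G₁`, coprime exponents. -/
theorem mem_of_pow_mem_of_index_coprime {G₁ : Subgroup G} [G₁.Normal] (hfin : G₁.index ≠ 0)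
    (hidx : ¬ p ∣ G₁.index) {w : G} {n : ℕ} (hw : w ^ (p ^ n) ∈ G₁) : w ∈ G₁ := by
  have hp : p.Prime := Fact.out
  have h1 : (w : G ⧸ G₁) ^ (p ^ n) = 1 := by
    rw [← QuotientGroup.mk_pow, QuotientGroup.eq_one_iff]
    exact hw
  have h2 : (w : G ⧸ G₁) ^ G₁.index = 1 := by
    rw [← QuotientGroup.mk_pow, QuotientGroup.eq_one_iff]
    exact Subgroup.pow_index_mem G₁ w
  have h3 := pow_gcd_eq_one.2 ⟨h1, h2⟩
  have hcop : Nat.Coprime (p ^ n) G₁.index :=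
    Nat.Coprime.pow_left n ((Nat.Prime.coprime_iff_not_dvd hp).2 hidx)
  rw [hcop.gcd_eq_one, pow_one, QuotientGroup.eq_one_iff] at h3
  exact h3

variable {M : Type*} [AddCommGroup M] [Module (ZMod p) M] {τ : Representation (ZMod p) G M}

/-- THE TOWER PRINCIPLE (B4).  To prove that a class `z ∈ H²(V, M)` vanishes it suffices to prove,
for every relatively open `V₁ ≤ V ⊓ G₁` and every nontrivial character `x` of `V₁`:
`z` dies on `ker x` ⇒ `z` dies on `V₁`.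
PROOF.  `die2` : `z ∈ B2 L (V ⊓ U₀) τ`; take a level `U ≤ U₀`, `U ≤ G₁` (`L.directed'`);
`exists_tower V hU`; downward induction on `i` gives `z ∈ B2 L (W 0) τ`
(`W i ≤ W 0 ≤ V ⊓ G₁` by `mem_of_pow_mem_of_index_coprime`); `mem_B2_of_relIndex_isUnit`. -/
theorem tower_principle {G₁ : Subgroup G} [G₁.Normal] (hG₁ : L.IsOpen G₁) (hidx : ¬ p ∣ G₁.index)
    {V : Subgroup G} {z : G → G → G → M} (hz : z ∈ Z2 L V τ)
    (step : ∀ V₁ : Subgroup G, V₁ ≤ V ⊓ G₁ → (∃ U ∈ L, V ⊓ U ≤ V₁) →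
      ∀ x ∈ Z1 L V₁ (trivZ p G), kerOf V₁ x ≠ V₁ → z ∈ B2 L (kerOf V₁ x) τ → z ∈ B2 L V₁ τ) :
    z ∈ B2 L V τ := by
  obtain ⟨U₀, hU₀, hz0⟩ := die2 hz
  obtain ⟨U₁, hU₁, hU₁G⟩ := hG₁
  obtain ⟨U, hU, hUU₀, hUU₁⟩ := L.directed' U₀ hU₀ U₁ hU₁
  have hfinG : G₁.index ≠ 0 := by
    have := L.finiteIndex' U₁ hU₁
    exact (Subgroup.finiteIndex_of_le hU₁G).index_ne_zero
  obtain ⟨n, W, x, h0, h1, h2, h3, h4, h5, h6⟩ := exists_tower (p := p) V hU
  have hW0 : W 0 ≤ V ⊓ G₁ := by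
    refine le_inf h0 fun w hw => ?_
    exact mem_of_pow_mem_of_index_coprime hfinG hidx (hU₁G (hUU₁ (h4 w hw).2))
  have hind : ∀ d, d ≤ n → z ∈ B2 L (W (n - d)) τ := by
    intro d
    induction d with
    | zero =>
      intro _
      rw [Nat.sub_zero, h3]
      exact B2_le_of_le (inf_le_inf_left V hUU₀) hz0
    | succ d ih =>
      intro hd
      have hi : n - (d + 1) < n := by omega
      obtain ⟨hx1, hx2, hx3⟩ := h6 _ hi
      have hle := h5 (n - (d + 1)) hi.le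
      refine step _ (hle.2.trans hW0) ⟨U, hU, hle.1⟩ _ hx1 hx3 ?_
      rw [hx2]
      have e : n - (d + 1) + 1 = n - d := by omega
      rw [e]
      exact ih (by omega)
  have hzW0 : z ∈ B2 L (W 0) τ := by
    have := hind n le_rfl
    rwa [Nat.sub_self] at this
  have hu : IsUnit (((W 0).relIndex V : ℕ) : ZMod p) := by
    rw [isUnit_iff_ne_zero, Ne, ZMod.natCast_eq_zero_iff]
    exact h2
  exact mem_B2_of_relIndex_isUnit h0 h1 hu hz.1 hzW0

/-- Same principle in degree `1`. -/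
theorem tower_principle₁ {G₁ : Subgroup G} [G₁.Normal] (hG₁ : L.IsOpen G₁) (hidx : ¬ p ∣ G₁.index)
    {V : Subgroup G} {z : G → G → M} (hz : z ∈ Z1 L V τ)
    (step : ∀ V₁ : Subgroup G, V₁ ≤ V ⊓ G₁ → (∃ U ∈ L, V ⊓ U ≤ V₁) →
      ∀ x ∈ Z1 L V₁ (trivZ p G), kerOf V₁ x ≠ V₁ → z ∈ B1 L (kerOf V₁ x) τ → z ∈ B1 L V₁ τ) :
    z ∈ B1 L V τ := by
  obtain ⟨U₀, hU₀, hz0⟩ := die1 hz
  obtain ⟨U₁, hU₁, hU₁G⟩ := hG₁
  obtain ⟨U, hU, hUU₀, hUU₁⟩ := L.directed' U₀ hU₀ U₁ hU₁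
  have hfinG : G₁.index ≠ 0 := by
    have := L.finiteIndex' U₁ hU₁
    exact (Subgroup.finiteIndex_of_le hU₁G).index_ne_zero
  obtain ⟨n, W, x, h0, h1, h2, h3, h4, h5, h6⟩ := exists_tower (p := p) V hU
  have hW0 : W 0 ≤ V ⊓ G₁ := by
    refine le_inf h0 fun w hw => ?_
    exact mem_of_pow_mem_of_index_coprime hfinG hidx (hU₁G (hUU₁ (h4 w hw).2))
  have hind : ∀ d, d ≤ n → z ∈ B1 L (W (n - d)) τ := by
    intro d
    induction d with
    | zero =>
      intro _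
      rw [Nat.sub_zero, h3]
      exact B1_le_of_le (inf_le_inf_left V hUU₀) hz0
    | succ d ih =>
      intro hd
      have hi : n - (d + 1) < n := by omega
      obtain ⟨hx1, hx2, hx3⟩ := h6 _ hi
      have hle := h5 (n - (d + 1)) hi.le
      refine step _ (hle.2.trans hW0) ⟨U, hU, hle.1⟩ _ hx1 hx3 ?_
      rw [hx2]
      have e : n - (d + 1) + 1 = n - d := by omega
      rw [e]
      exact ih (by omega)
  have hzW0 : z ∈ B1 L (W 0) τ := by
    have := hind n le_rfl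
    rwa [Nat.sub_self] at this
  have hu : IsUnit (((W 0).relIndex V : ℕ) : ZMod p) := by
    rw [isUnit_iff_ne_zero, Ne, ZMod.natCast_eq_zero_iff]
    exact h2
  exact mem_B1_of_relIndex_isUnit h0 h1 hu hz.1 hzW0

end Fermat.Agent.PT
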